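import Fermat.Agent.RittDecomposition.Main
import Mathlib.Algebra.Polynomial.Lifts

/-!
# Decompositions descend

In characteristic `0` a normalised right component has its coefficients in the field of `f`, since
they are determined in turn by the upper coefficients of a power of it.
-/

set_option autoImplicit false

noncomputable section

open Polynomial
open Fermat.Agent.RittDecomposition (Indecomposable)

namespace FA.SchurBGroup

variable {K M : Type*} [Field K] [Field M] [Algebra K M]

/-- Coefficients of a root of a power. -/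
theorem mem_lifts_of_pow [CharZero K] {h : M[X]} (hm : h.Monic) (h0 : h.coeff 0 = 0) {r : ℕ}
    (hr : 0 < r)
    (hc : ∀ j, 0 < j → j < h.natDegree →
      (h ^ r).coeff (r * h.natDegree - j) ∈ (algebraMap K M).range) :
    h ∈ lifts (algebraMap K M) := by
  set k := h.natDegree with hk
  suffices key : ∀ j, ∀ i, k ≤ i + j → h.coeff i ∈ (algebraMap K M).range by
    rw [lifts_iff_coeff_lifts]
    exact fun i => key k i (Nat.le_add_left k i)
  intro j
  induction j with
  | zero =>
    intro i hi
    rcases eq_or_lt_of_le hi with he | hlt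
    · rw [add_zero] at he
      rw [← he, hk, hm.coeff_natDegree]
      exact ⟨1, map_one _⟩
    · rw [coeff_eq_zero_of_natDegree_lt (by omega)]
      exact ⟨0, map_zero _⟩
  | succ j ih =>
    intro i hi
    by_cases hle : k ≤ i + j
    · exact ih i hle
    have hij : i + (j + 1) = k := by omega
    rcases Nat.eq_zero_or_pos i with rfl | hi0
    · rw [h0]
      exact ⟨0, map_zero _⟩
    choose c hc' using fun l (hl : i < l) => ih l (by omega)
    -- the known upper part
    set p : K[X] :=
      ∑ l ∈ Finset.range (k + 1), if hl : i < l then C (c l hl) * X ^ l else 0 with hp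
    have hpcoeff : ∀ l, (p.map (algebraMap K M)).coeff l = if i < l then h.coeff l else 0 := by
      intro l
      rw [hp, Polynomial.map_sum, finsetSum_coeff, Finset.sum_eq_single l]
      · split_ifs with hl
        · rw [Polynomial.map_mul, map_C, Polynomial.map_pow, map_X, coeff_C_mul_X_pow, if_pos rfl,
            hc']
        · rw [Polynomial.map_zero, coeff_zero]
      · intro b _ hb
        split_ifs with hl
        · rw [Polynomial.map_mul, map_C, Polynomial.map_pow, map_X, coeff_C_mul_X_pow,
            if_neg fun e => hb e.symm]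
        · rw [Polynomial.map_zero, coeff_zero]
      · intro hl
        rw [Finset.mem_range] at hl
        split_ifs with hil
        · rw [Polynomial.map_mul, map_C, Polynomial.map_pow, map_X, coeff_C_mul_X_pow, if_pos rfl,
            hc', coeff_eq_zero_of_natDegree_lt (by omega)]
        · rw [Polynomial.map_zero, coeff_zero]
    set h₀ := p.map (algebraMap K M)
    have hdeg0 : h₀.natDegree = k := by
      refine natDegree_eq_of_le_of_coeff_ne_zero ?_ ?_
      · rw [natDegree_le_iff_coeff_eq_zero]
        intro l hl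
        rw [hpcoeff]
        split_ifs
        · exact coeff_eq_zero_of_natDegree_lt (by omega)
        · rfl
      · rw [hpcoeff, if_pos (by omega), hk, hm.coeff_natDegree]
        exact one_ne_zero
    have hm0 : h₀.Monic := by
      rw [Monic, leadingCoeff, hdeg0, hpcoeff, if_pos (by omega), hk, hm.coeff_natDegree]
    set e := h - h₀
    have hedeg : e.natDegree ≤ i := by
      rw [natDegree_le_iff_coeff_eq_zero]
      intro l hl
      rw [coeff_sub, hpcoeff, if_pos hl, sub_self]
    have hecoeff : e.coeff i = h.coeff i := by rw [coeff_sub, hpcoeff, if_neg (lt_irrefl i), sub_zero]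
    set S := ∑ l ∈ Finset.range r, h ^ l * h₀ ^ (r - 1 - l) with hS
    have hterm : ∀ l ∈ Finset.range r, (h ^ l * h₀ ^ (r - 1 - l)).natDegree = (r - 1) * k := by
      intro l hl
      rw [Finset.mem_range] at hl
      rw [(hm.pow l).natDegree_mul (hm0.pow _), hm.natDegree_pow, hm0.natDegree_pow, hdeg0, ← hk,
        ← add_mul, Nat.add_sub_cancel' (by omega)]
    have hSdeg : S.natDegree ≤ (r - 1) * k :=
      natDegree_sum_le_of_forall_le _ _ fun l hl => (hterm l hl).le
    have hStop : S.coeff ((r - 1) * k) = (r : M) := by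
      rw [hS, finsetSum_coeff, Finset.sum_congr rfl (g := fun _ => (1 : M)) fun l hl => by
        rw [← hterm l hl]
        exact ((hm.pow l).mul (hm0.pow _)).coeff_natDegree]
      simp
    have hidx : i + (r - 1) * k = r * k - (j + 1) := by
      obtain ⟨r', rfl⟩ : ∃ r', r = r' + 1 := ⟨r - 1, by omega⟩
      rw [Nat.add_sub_cancel, add_mul, one_mul]
      omega
    have hmul : (h ^ r).coeff (r * k - (j + 1)) - (h₀ ^ r).coeff (r * k - (j + 1)) =
        h.coeff i * r := by
      rw [← coeff_sub, ← geom_sum₂_mul, ← hS, mul_comm S e, ← hidx,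
        coeff_mul_add_eq_of_natDegree_le hedeg hSdeg, hecoeff, hStop]
    obtain ⟨a, ha⟩ := hc (j + 1) (Nat.succ_pos j) (by omega)
    refine ⟨(a - (p ^ r).coeff (r * k - (j + 1))) / r, ?_⟩
    rw [map_div₀, map_sub, map_natCast, ha, ← coeff_map, Polynomial.map_pow, hmul,
      mul_div_cancel_right₀]
    haveI := charZero_of_injective_algebraMap (algebraMap K M).injective
    exact Nat.cast_ne_zero.2 hr.ne'

/-- The left component descends. -/
theorem mem_lifts_of_comp {p : K[X]} (hp : p.Monic) (hp0 : 0 < p.natDegree) {g : M[X]}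
    (hg : g.comp (p.map (algebraMap K M)) ∈ lifts (algebraMap K M)) :
    g ∈ lifts (algebraMap K M) := by
  induction hd : g.natDegree using Nat.strong_induction_on generalizing g with
  | _ d ih =>
    subst hd
    set P := p.map (algebraMap K M)
    have hPm : P.Monic := hp.map _
    have hPd : P.natDegree = p.natDegree := natDegree_map _
    rcases Nat.eq_zero_or_pos g.natDegree with h0 | h0
    · rw [eq_C_of_natDegree_eq_zero h0] at hg ⊢
      rwa [C_comp] at hg
    have htop : (g.comp P).coeff (g.natDegree * P.natDegree) = g.leadingCoeff := by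
      rw [← natDegree_comp, coeff_natDegree, leadingCoeff_comp (by omega), hPm.leadingCoeff,
        one_pow, mul_one]
    obtain ⟨a, ha⟩ := (lifts_iff_coeff_lifts _).1 hg (g.natDegree * P.natDegree)
    rw [htop] at ha
    have hlead : C g.leadingCoeff * X ^ g.natDegree ∈ lifts (algebraMap K M) :=
      (mem_lifts _).2 ⟨C a * X ^ g.natDegree, by simp [ha]⟩
    have herase : g.eraseLead ∈ lifts (algebraMap K M) := by
      refine ih _ (lt_of_le_of_lt (eraseLead_natDegree_le g) (by omega)) ?_ rfl
      have e : g.eraseLead.comp P = g.comp P - C g.leadingCoeff * P ^ g.natDegree := by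
        rw [← self_sub_C_mul_X_pow, sub_comp, mul_comp, C_comp, X_pow_comp]
      rw [e]
      obtain ⟨q, hq⟩ := (mem_lifts _).1 hg
      exact (mem_lifts _).2 ⟨q - C a * p ^ g.natDegree, by simp [hq, ha, P]⟩
    obtain ⟨q, hq⟩ := (mem_lifts _).1 herase
    obtain ⟨q', hq'⟩ := (mem_lifts _).1 hlead
    exact (mem_lifts _).2 ⟨q + q', by rw [Polynomial.map_add, hq, hq', eraseLead_add_C_mul_X_pow]⟩

/-- **Indecomposability survives every extension of the field.** -/
theorem indecomposable_map [CharZero K] {f : K[X]} (hf : Indecomposable f) :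
    Indecomposable (f.map (algebraMap K M)) := by
  refine ⟨by rw [natDegree_map]; exact hf.1, fun g h e => ?_⟩
  by_contra hno
  push Not at hno
  have hn : g.natDegree * h.natDegree = f.natDegree := by
    rw [← natDegree_comp, ← e, natDegree_map]
  have hn2 := hf.1
  have hg0 : g.natDegree ≠ 0 := fun h0 => by rw [h0, zero_mul] at hn; omega
  have hh0 : h.natDegree ≠ 0 := fun h0 => by rw [h0, mul_zero] at hn; omega
  have hh : h ≠ 0 := fun h0 => hh0 (by rw [h0, natDegree_zero])
  set c := h.leadingCoeff
  have hc : c ≠ 0 := leadingCoeff_ne_zero.2 hh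
  set h₁ := C c⁻¹ * (h - C (h.coeff 0)) with hh₁
  set g₁ := g.comp (C c * X + C (h.coeff 0)) with hg₁
  have hcomp : g₁.comp h₁ = f.map (algebraMap K M) := by
    rw [hg₁, comp_assoc, e]
    congr 1
    rw [add_comp, mul_comp, C_comp, X_comp, C_comp, hh₁, ← mul_assoc, ← C_mul, mul_inv_cancel₀ hc,
      C_1, one_mul, sub_add_cancel]
  have hd1 : h₁.natDegree = h.natDegree := by
    rw [hh₁, natDegree_C_mul (inv_ne_zero hc), natDegree_sub_C]
  have hd2 : g₁.natDegree = g.natDegree := by
    rw [hg₁, natDegree_comp, natDegree_linear hc, mul_one]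
  have hm1 : h₁.Monic := by
    rw [Monic, leadingCoeff, hd1, hh₁, coeff_C_mul, coeff_sub, coeff_C, if_neg hh0, sub_zero]
    exact inv_mul_cancel₀ hc
  have hlead : g₁.leadingCoeff = algebraMap K M f.leadingCoeff := by
    have := congrArg leadingCoeff hcomp
    rwa [leadingCoeff_comp (by omega), hm1.leadingCoeff, one_pow, mul_one,
      leadingCoeff_map_of_injective (algebraMap K M).injective] at this
  have hflc : algebraMap K M f.leadingCoeff ≠ 0 :=
    (map_ne_zero (algebraMap K M)).2 (leadingCoeff_ne_zero.2 fun e => by simp [e] at hn2)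
  obtain ⟨p, hp⟩ : ∃ p : K[X], p.map (algebraMap K M) = h₁ := by
    refine (mem_lifts _).1 (mem_lifts_of_pow hm1 (by simp [hh₁]) (r := g₁.natDegree) (by omega)
      fun j hj hjk => ?_)
    obtain ⟨r', hr'⟩ : ∃ r', g₁.natDegree = r' + 1 := ⟨g₁.natDegree - 1, by omega⟩
    have hlow : (g₁.eraseLead.comp h₁).natDegree < g₁.natDegree * h₁.natDegree - j := by
      have h1 := eraseLead_natDegree_le g₁
      rw [natDegree_comp, hr', add_mul, one_mul]
      have h2 : g₁.eraseLead.natDegree * h₁.natDegree ≤ r' * h₁.natDegree :=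
        Nat.mul_le_mul_right _ (by omega)
      omega
    have hco : (g₁.comp h₁).coeff (g₁.natDegree * h₁.natDegree - j) =
        g₁.leadingCoeff * (h₁ ^ g₁.natDegree).coeff (g₁.natDegree * h₁.natDegree - j) := by
      rw [congrArg (fun P => (P.comp h₁).coeff (g₁.natDegree * h₁.natDegree - j))
        (eraseLead_add_C_mul_X_pow g₁).symm, add_comp, mul_comp, C_comp, X_pow_comp]
      rw [coeff_add, coeff_C_mul, coeff_eq_zero_of_natDegree_lt hlow, zero_add]
    rw [hcomp, coeff_map, hlead] at hco
    exact ⟨f.coeff (g₁.natDegree * h₁.natDegree - j) / f.leadingCoeff, by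
      rw [map_div₀, hco, mul_div_cancel_left₀ _ hflc]⟩
  have hpm : p.Monic := monic_of_injective (algebraMap K M).injective (hp ▸ hm1)
  have hpd : p.natDegree = h.natDegree := by rw [← natDegree_map (algebraMap K M), hp, hd1]
  obtain ⟨q, hq⟩ := (mem_lifts _).1 (mem_lifts_of_comp hpm (by omega) (g := g₁)
    ((mem_lifts _).2 ⟨f, by rw [hp, hcomp]⟩))
  have hfq : f = q.comp p := map_injective (algebraMap K M) (algebraMap K M).injective (by
    rw [map_comp, hq, hp, hcomp])
  rcases hf.2 q p hfq with h1 | h1
  · exact hno.1 (by rw [← hd2, ← hq, natDegree_map, h1])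
  · exact hno.2 (hpd ▸ h1)

/-- A decomposable polynomial has a reducible quotient. -/
theorem indecomposable_of_irreducible [CharZero K] {f : K[X]} (hn : 2 ≤ f.natDegree) {Q : K[X][X]}
    (hQ : (X - C X) * Q = f.map C - C f) (hirr : Irreducible Q) : Indecomposable f := by
  refine ⟨hn, fun g h e => ?_⟩
  by_contra hno
  push Not at hno
  have hdeg : g.natDegree * h.natDegree = f.natDegree := by rw [← natDegree_comp, ← e]
  have hg0 : g.natDegree ≠ 0 := fun h0 => by rw [h0, zero_mul] at hdeg; omega
  have hh0 : h.natDegree ≠ 0 := fun h0 => by rw [h0, mul_zero] at hdeg; omega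
  obtain ⟨R, hR⟩ : (X - C X : K[X][X]) ∣ h.map C - C h := by
    rw [dvd_iff_isRoot, IsRoot, eval_sub, eval_C, eval_map, eval₂_C_X, sub_self]
  obtain ⟨E, hE⟩ : (h.map C - C h : K[X][X]) ∣ f.map C - C f := by
    have h1 := sub_dvd_eval_sub (h.map C) (C h) ((g.map C).map C)
    rwa [eval_map, ← Polynomial.comp, ← map_comp, ← e, eval_map, eval₂_hom, eval_map,
      ← Polynomial.comp, ← e] at h1
  have hQe : Q = R * E := mul_left_cancel₀ (X_sub_C_ne_zero (X : K[X])) (by
    rw [hQ, hE, hR, mul_assoc])
  have hhd : (h.map C - C h).natDegree = h.natDegree := by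
    rw [natDegree_sub_C, natDegree_map_eq_of_injective C_injective]
  have hfd : (f.map C - C f).natDegree = f.natDegree := by
    rw [natDegree_sub_C, natDegree_map_eq_of_injective C_injective]
  have hne : h.map C - C h ≠ 0 := fun e => by rw [e, natDegree_zero] at hhd; omega
  have hEne : E ≠ 0 := fun e => by
    rw [e, mul_zero] at hE
    rw [hE, natDegree_zero] at hfd
    omega
  rw [hE, natDegree_mul hne hEne, hhd] at hfd
  have hRne : R ≠ 0 := fun e => hne (by rw [hR, e, mul_zero])
  rw [hR, natDegree_mul (X_sub_C_ne_zero _) hRne, natDegree_X_sub_C] at hhd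
  rcases hirr.isUnit_or_isUnit hQe with hu | hu
  · have := natDegree_eq_zero_of_isUnit hu
    omega
  · have := natDegree_eq_zero_of_isUnit hu
    have h2 : 2 ≤ g.natDegree := by omega
    nlinarith

end FA.SchurBGroup

end
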