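import Fermat.Agent.SchurBGroup.Main
import Mathlib.GroupTheory.GroupAction.MultipleTransitivity
import Mathlib.GroupTheory.Perm.Cycle.Basic

/-!
# Schur's theorem for permutation groups

A primitive group of composite degree containing a full cycle is doubly transitive.
-/

set_option autoImplicit false
set_option linter.style.haveILetI false

noncomputable section

namespace FA.SchurBGroup

open MulAction

/-- A full cycle numbers the points by `ℤ / n`. -/
theorem exists_numbering {α : Type*} [Fintype α] [DecidableEq α] [Nonempty α] {g : Equiv.Perm α}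
    (hc : g.IsCycle) (hs : g.support = Finset.univ) :
    ∃ e : ZMod (Fintype.card α) ≃ α, ∀ i, e (i + 1) = g (e i) := by
  haveI : NeZero (Fintype.card α) := ⟨Fintype.card_ne_zero⟩
  obtain ⟨a⟩ := ‹Nonempty α›
  have hmove : ∀ x, g x ≠ x := fun x => Equiv.Perm.mem_support.1 (hs ▸ Finset.mem_univ x)
  have hord : orderOf g = Fintype.card α := by rw [hc.orderOf, hs, Finset.card_univ]
  have hmod : ∀ k, g ^ (k % Fintype.card α) = g ^ k := fun k => by rw [← hord, pow_mod_orderOf]
  set e₀ : ZMod (Fintype.card α) → α := fun i => (g ^ i.val) a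
  have hsurj : Function.Surjective e₀ := fun b => by
    obtain ⟨k, hk⟩ := hc.exists_pow_eq (hmove a) (hmove b)
    refine ⟨k, ?_⟩
    show (g ^ (k : ZMod (Fintype.card α)).val) a = b
    rw [ZMod.val_natCast, hmod, hk]
  have hbij : Function.Bijective e₀ :=
    (Fintype.bijective_iff_surjective_and_card e₀).2 ⟨hsurj, ZMod.card _⟩
  refine ⟨Equiv.ofBijective e₀ hbij, fun i => ?_⟩
  show (g ^ (i + 1).val) a = g ((g ^ i.val) a)
  rw [ZMod.val_add, ← Equiv.Perm.mul_apply, ← pow_succ', hmod]
  rcases eq_or_ne (Fintype.card α) 1 with h1 | h1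
  · exact absurd ((Fintype.card_le_one_iff.1 h1.le) (g a) a) (hmove a)
  · haveI : Fact (1 < Fintype.card α) := ⟨by have := Fintype.card_pos (α := α); omega⟩
    rw [ZMod.val_one]

/-- **Schur's theorem.** -/
theorem isMultiplyPretransitive_two {α : Type*} [Fintype α] [DecidableEq α]
    (G : Subgroup (Equiv.Perm α)) [IsPreprimitive G α] {g : Equiv.Perm α} (hg : g ∈ G)
    (hc : g.IsCycle) (hs : g.support = Finset.univ) (hn : ¬ (Fintype.card α).Prime) :
    IsMultiplyPretransitive G α 2 := by
  have h2 : 2 ≤ Fintype.card α := by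
    have := hc.two_le_card_support
    rwa [hs, Finset.card_univ] at this
  haveI : Nonempty α := Fintype.card_pos_iff.1 (by omega)
  haveI : NeZero (Fintype.card α) := ⟨Fintype.card_ne_zero⟩
  obtain ⟨e, he⟩ := exists_numbering hc hs
  set H : Subgroup (Equiv.Perm (ZMod (Fintype.card α))) :=
    G.comap (MonoidHom.mk' (fun p => e.permCongr p) fun p q => Equiv.ext fun x => by simp)
  have hH : Translations H := translations_of_addRight_one H (show e.permCongr _ ∈ G from by
    convert hg
    ext x
    simp [he])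
  have hprim : SubPrim H := subPrim_of_blocks hH fun B hB => by
    have hblock : IsBlock G (e '' B) := isBlock_iff_smul_eq_of_mem.2 fun k a ha hka => by
      obtain ⟨b, hb, rfl⟩ := ha
      obtain ⟨b', hb', hbb⟩ := hka
      have hk : e.symm.permCongr (k : Equiv.Perm α) ∈ H := show e.permCongr _ ∈ G from by
        convert k.2
        ext x
        simp
      have hval : ∀ y, e.symm.permCongr (k : Equiv.Perm α) y = e.symm ((k : Equiv.Perm α) (e y)) :=
        fun y => by simp
      have hk' := hB _ hk b hb (by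
        rw [hval, show (k : Equiv.Perm α) (e b) = e b' from hbb.symm, e.symm_apply_apply]
        exact hb')
      ext z
      constructor
      · rintro ⟨_, ⟨y, hy, rfl⟩, rfl⟩
        refine ⟨_, hk'.subset ⟨y, hy, rfl⟩, ?_⟩
        rw [hval, e.apply_symm_apply]
        rfl
      · rintro ⟨y, hy, rfl⟩
        obtain ⟨y', hy', hyy⟩ := hk'.symm.subset hy
        refine ⟨e y', ⟨y', hy', rfl⟩, ?_⟩
        rw [← hyy, hval, e.apply_symm_apply]
        rfl
    rcases hblock.subsingleton_or_eq_univ with h | h
    · exact Or.inl fun x hx y hy => e.injective (h ⟨x, hx, rfl⟩ ⟨y, hy, rfl⟩)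
    · exact Or.inr ((Set.image_eq_image e.injective).1 (h.trans (Set.image_univ_of_surjective e.surjective).symm))
  rw [is_two_pretransitive_iff]
  intro a b c d hab hcd
  obtain ⟨σ, hσ, h0, hσ'⟩ := mem_orb_of_composite hH hprim h2 hn
    (sub_ne_zero.2 fun h => hab (e.symm.injective h).symm : e.symm b - e.symm a ≠ 0)
    (sub_ne_zero.2 fun h => hcd (e.symm.injective h).symm : e.symm d - e.symm c ≠ 0)
  set τ := Equiv.addRight (e.symm c) * σ * Equiv.addRight (-e.symm a)
  have hτ : τ ∈ H := mul_mem (mul_mem (hH _) hσ) (hH _)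
  refine ⟨⟨e.permCongr τ, hτ⟩, ?_, ?_⟩
  · show e.permCongr τ a = c
    simp [τ, h0]
  · show e.permCongr τ b = d
    rw [Equiv.permCongr_apply]
    simp [τ, ← sub_eq_add_neg, hσ']

end FA.SchurBGroup

end
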