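import Fermat.Agent.SchurBGroup.Orbits
import Fermat.Agent.RittDecomposition.Series
import Mathlib.FieldTheory.Galois.Basic
import Mathlib.FieldTheory.IntermediateField.Adjoin.Basic

/-!
# The monodromy of a polynomial

In characteristic `0` the splitting field of `f(X) - t` over `K(t)` has an automorphism moving the
roots in one cycle, and what the automorphisms fixing a root fix is rational in that root.
-/

set_option autoImplicit false
set_option linter.style.haveILetI false

noncomputable section

open Polynomial
open Fermat.Agent.RittDecomposition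

namespace FA.SchurBGroup

variable {K : Type*} [Field K] {f : K[X]} {L : Type*} [Field L] [Algebra K L]

/-- The roots of `f(X) = f(x 0)`, numbered along a cycle. -/
structure Mono (f : K[X]) (L : Type*) [Field L] [Algebra K L] where
  /-- the roots -/
  x : ZMod f.natDegree → L
  inj : Function.Injective x
  transc : Function.Injective (aeval (x 0) : K[X] → L)
  root : ∀ i, aeval (x i) f = aeval (x 0) f
  shift : ∃ σ : L ≃ₐ[K] L, ∀ i, σ (x i) = x (i + 1)
  fixed : ∀ z : L, (∀ σ : L ≃ₐ[K] L, σ (x 0) = x 0 → σ z = z) →
    ∃ a b : K[X], z = aeval (x 0) a / aeval (x 0) b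

/-- Roots numbered by `ℤ / n` exhaust a nonzero polynomial of degree at most `n`. -/
theorem exists_eq_of_root {n : ℕ} [NeZero n] {x : ZMod n → L} (hx : Function.Injective x)
    {P : L[X]} (hP0 : P ≠ 0) (hdeg : P.natDegree ≤ n) (hroot : ∀ i, P.eval (x i) = 0) {y : L}
    (hy : P.eval y = 0) : ∃ i, x i = y := by
  classical
  by_contra hno
  push Not at hno
  refine hP0 (eq_zero_of_natDegree_lt_card_of_eval_eq_zero' P (insert y (Finset.univ.image x))
    (fun z hz => ?_) ?_)
  · rcases Finset.mem_insert.1 hz with rfl | hz
    · exact hy
    · obtain ⟨i, -, rfl⟩ := Finset.mem_image.1 hz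
      exact hroot i
  · rw [Finset.card_insert_of_notMem, Finset.card_image_of_injective _ hx, Finset.card_univ,
      ZMod.card]
    · omega
    · simpa using hno

variable [CharZero K]

/-- **Existence.** -/
theorem exists_mono (hn : 0 < f.natDegree) :
    ∃ (L : IntermediateField K (SeriesField K)), Nonempty (Mono f L) := by
  classical
  obtain ⟨c⟩ := exists_fullCycle f hn
  haveI : NeZero f.natDegree := ⟨hn.ne'⟩
  set t := aeval c.x₀ f with ht
  set F : IntermediateField K (SeriesField K) := IntermediateField.adjoin K {t}
  set x : ZMod f.natDegree → SeriesField K := fun i => c.τ^[i.val] c.x₀ with hx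
  have hxinj : Function.Injective x := fun i j h =>
    ZMod.val_injective _ (c.distinct _ (ZMod.val_lt i) _ (ZMod.val_lt j) h)
  have hiter : ∀ k, c.τ^[k] c.x₀ = x k := fun k => by
    rw [hx]
    simp only [ZMod.val_natCast]
    conv_lhs => rw [← Nat.mod_add_div k f.natDegree, Function.iterate_add_apply,
      (Function.IsPeriodicPt.mul_const c.per (k / f.natDegree)).eq]
  have hroot : ∀ i, aeval (x i) f = t := fun i => by
    have := c.val_of_dvd c.inv_f (one_dvd i.val)
    simpa [FullCycle.val, hx] using this
  set g : F[X] := f.map (algebraMap K F) - C ⟨t, IntermediateField.mem_adjoin_simple_self K t⟩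
  have hgmap : g.map (algebraMap F (SeriesField K)) = f.map (algebraMap K _) - C t := by
    rw [Polynomial.map_sub, map_map, map_C, ← IsScalarTower.algebraMap_eq]
    rfl
  have hdeg : g.natDegree = f.natDegree := by rw [natDegree_sub_C, natDegree_map]
  have hg0 : g ≠ 0 := fun h => by rw [h, natDegree_zero] at hdeg; omega
  set Q := g.map (algebraMap F (SeriesField K))
  have hQroot : ∀ i, Q.eval (x i) = 0 := fun i => by
    rw [hgmap, eval_sub, eval_C, eval_map_algebraMap, hroot, sub_self]
  have hQdeg : Q.natDegree = f.natDegree := by rw [natDegree_map, hdeg]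
  have hQ0 : Q ≠ 0 := (Polynomial.map_ne_zero_iff (algebraMap F (SeriesField K)).injective).2 hg0
  have hsplits : Q.Splits := by
    refine splits_iff_card_roots.2 (le_antisymm (card_roots' _) ?_)
    rw [hQdeg]
    have hsub : Finset.univ.image x ⊆ Q.roots.toFinset := fun y hy => by
      obtain ⟨i, -, rfl⟩ := Finset.mem_image.1 hy
      exact Multiset.mem_toFinset.2 ((mem_roots hQ0).2 (hQroot i))
    have := (Finset.card_le_card hsub).trans (Multiset.toFinset_card_le _)
    rwa [Finset.card_image_of_injective _ hxinj, Finset.card_univ, ZMod.card] at this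
  set L := IntermediateField.adjoin F (g.rootSet (SeriesField K))
  haveI hsf : g.IsSplittingField F L := IntermediateField.adjoin_rootSet_isSplittingField hsplits
  haveI : FiniteDimensional F L := Polynomial.IsSplittingField.finiteDimensional L g
  haveI : Normal F L := Normal.of_isSplittingField g
  haveI : IsGalois F L := ⟨⟩
  have hxL : ∀ i, x i ∈ L := fun i => IntermediateField.subset_adjoin _ _
    ((Polynomial.mem_rootSet).2 ⟨hg0, by rw [← eval_map_algebraMap]; exact hQroot i⟩)
  set xl : ZMod f.natDegree → L.restrictScalars K := fun i => ⟨x i, hxL i⟩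
  have hcoe : ∀ (i : ZMod f.natDegree) (p : K[X]),
      ((aeval (xl i : L.restrictScalars K) p : L.restrictScalars K) : SeriesField K) =
        aeval (x i) p := fun i p =>
    (aeval_algHom_apply (L.restrictScalars K).val (xl i : L.restrictScalars K) p).symm
  refine ⟨L.restrictScalars K, ⟨{
    x := xl
    inj := fun i j h => hxinj (congrArg Subtype.val h)
    transc := fun p q h => c.inj ?_
    root := fun i => ?_
    shift := ?_
    fixed := fun z hz => ?_ }⟩⟩
  · have h0 : x 0 = c.x₀ := by simp [hx]
    have h' := congrArg (fun w : (L.restrictScalars K) => (w : SeriesField K)) h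
    simp only [hcoe] at h'
    rwa [h0] at h'
  · refine Subtype.ext ?_
    rw [hcoe, hcoe, hroot, hroot]
  · -- the cycle
    have hfixF : ∀ a : F, c.τ (a : SeriesField K) = a := by
      let E : IntermediateField K (SeriesField K) :=
        { carrier := {z | c.τ z = z}
          mul_mem' := fun {a b} ha hb => by
            show c.τ (a * b) = a * b
            rw [map_mul, ha, hb]
          add_mem' := fun {a b} ha hb => by
            show c.τ (a + b) = a + b
            rw [map_add, ha, hb]
          algebraMap_mem' := c.τ.commutes
          inv_mem' := fun a ha => by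
            show c.τ a⁻¹ = a⁻¹
            rw [map_inv₀, ha] }
      have hle : F ≤ E := IntermediateField.adjoin_le_iff.2 (Set.singleton_subset_iff.2
        (show c.τ t = t by rw [ht, ← aeval_algHom_apply]; exact c.fix))
      exact fun a => hle a.2
    let τF : SeriesField K →ₐ[F] SeriesField K :=
      { c.τ.toRingHom with commutes' := hfixF }
    let σ : L ≃ₐ[F] L := AlgHom.restrictNormal' τF L
    refine ⟨σ.restrictScalars K, fun i => Subtype.ext ?_⟩
    show algebraMap L (SeriesField K) (τF.restrictNormal L (xl i : L)) = x (i + 1)
    rw [AlgHom.restrictNormal_commutes]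
    show c.τ (c.τ^[i.val] c.x₀) = x (i + 1)
    rw [← Function.iterate_succ_apply' c.τ, hiter]
    simp
  · -- rational in the root
    set T : IntermediateField K (L.restrictScalars K) := IntermediateField.adjoin K {xl 0}
    suffices hT : z ∈ T by
      obtain ⟨a, b, hab⟩ := IntermediateField.mem_adjoin_simple_iff K z |>.1 hT
      exact ⟨a, b, hab⟩
    have hF : ∀ a : F, algebraMap F L a ∈ T := by
      have hle : F ≤ T.map (L.restrictScalars K).val := IntermediateField.adjoin_le_iff.2
        (Set.singleton_subset_iff.2 ⟨aeval (xl 0 : L.restrictScalars K) f,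
          IntermediateField.algebra_adjoin_le_adjoin _ _ (aeval_mem_adjoin_singleton K _),
          (hcoe 0 f).trans (hroot 0)⟩)
      intro a
      obtain ⟨w, hw, hwa⟩ := hle a.2
      have : algebraMap F L a = w := Subtype.ext hwa.symm
      rw [this]
      exact hw
    have hzE : z ∈ IntermediateField.adjoin F ({(xl 0 : L)} : Set L) := by
      rw [← IsGalois.fixedField_fixingSubgroup (IntermediateField.adjoin F ({(xl 0 : L)} : Set L))]
      rintro ⟨σ, hσ⟩
      exact hz (σ.restrictScalars K) ((IntermediateField.mem_fixingSubgroup_iff _ _).1 hσ _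
        (IntermediateField.mem_adjoin_simple_self F _))
    have hzS : (z : L) ∈ (IntermediateField.adjoin F ({(xl 0 : L)} : Set L)).toSubfield := hzE
    rw [IntermediateField.adjoin_toSubfield] at hzS
    refine (Subfield.closure_le (t := T.toSubfield)).2 ?_ hzS
    rintro w (⟨a, rfl⟩ | rfl)
    · exact hF a
    · exact IntermediateField.mem_adjoin_simple_self K _

end FA.SchurBGroup

end
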