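import Fermat.Agent.SchurBGroup.Main
import Fermat.Agent.SchurBGroup.Galois
import Fermat.Agent.RittDecomposition.Main

/-!
# Fried's theorem

An invariant subgroup gives a right component, so the monodromy group of an indecomposable
polynomial has none; by Schur's theorem the stabiliser of one root is transitive on the others.
-/

set_option autoImplicit false
set_option linter.style.haveILetI false

noncomputable section

open Polynomial
open Fermat.Agent.RittDecomposition (Indecomposable)

namespace FA.SchurBGroup

variable {K : Type*} [Field K] {f : K[X]} {L : Type*} [Field L] [Algebra K L] (m : Mono f L)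

namespace Mono

/-- The permutations of the roots induced by automorphisms. -/
def group : Subgroup (Equiv.Perm (ZMod f.natDegree)) where
  carrier := {π | ∃ σ : L ≃ₐ[K] L, ∀ i, σ (m.x i) = m.x (π i)}
  one_mem' := ⟨1, fun i => rfl⟩
  mul_mem' := fun {a b} ⟨σ, hσ⟩ ⟨τ, hτ⟩ => ⟨σ * τ, fun i => by
    rw [AlgEquiv.mul_apply, hτ, hσ]; rfl⟩
  inv_mem' := fun {a} ⟨σ, hσ⟩ => ⟨σ.symm, fun i => by
    rw [AlgEquiv.symm_apply_eq, hσ, Equiv.Perm.inv_def, Equiv.apply_symm_apply]⟩

theorem translations [NeZero f.natDegree] : Translations m.group :=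
  translations_of_addRight_one _ (let ⟨σ, hσ⟩ := m.shift; ⟨σ, fun i => hσ i⟩)

/-- `f(X) - f(x 0)`. -/
def poly : L[X] := f.map (algebraMap K L) - C (aeval (m.x 0) f)

theorem eval_poly (i : ZMod f.natDegree) : m.poly.eval (m.x i) = 0 := by
  rw [poly, eval_sub, eval_C, eval_map_algebraMap, m.root, sub_self]

theorem natDegree_poly : m.poly.natDegree = f.natDegree := by
  rw [poly, natDegree_sub_C, natDegree_map]

variable (hn : 0 < f.natDegree)

include hn

theorem poly_ne_zero : m.poly ≠ 0 := fun h => by
  have := m.natDegree_poly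
  rw [h, natDegree_zero] at this
  omega

/-- An automorphism fixing a root permutes the others. -/
theorem exists_perm {σ : L ≃ₐ[K] L} (h : σ (m.x 0) = m.x 0) :
    ∃ π ∈ m.group, π 0 = 0 ∧ ∀ i, σ (m.x i) = m.x (π i) := by
  haveI : NeZero f.natDegree := ⟨hn.ne'⟩
  have hex : ∀ i, ∃ j, m.x j = σ (m.x i) := fun i => exists_eq_of_root m.inj (m.poly_ne_zero hn)
    m.natDegree_poly.le m.eval_poly (by
      have e : aeval (σ (m.x i)) f = aeval (σ (m.x 0)) f :=
        ((aeval_algHom_apply σ.toAlgHom (m.x i) f).trans (congrArg σ (m.root i))).trans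
          (aeval_algHom_apply σ.toAlgHom (m.x 0) f).symm
      rw [h] at e
      rw [poly, eval_sub, eval_C, eval_map_algebraMap, e, sub_self])
  choose π hπ using hex
  have hbij : Function.Bijective π := Finite.injective_iff_bijective.1 fun a b e =>
    m.inj (σ.injective ((hπ a).symm.trans ((congrArg m.x e).trans (hπ b))))
  refine ⟨Equiv.ofBijective π hbij, ⟨σ, fun i => (hπ i).symm⟩, m.inj ?_, fun i => (hπ i).symm⟩
  show m.x (π 0) = m.x 0
  rw [hπ, h]

omit hn in
/-- Automorphisms move the polynomials in the roots. -/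
theorem map_aeval (σ : L ≃ₐ[K] L) (i : ZMod f.natDegree) (p : K[X]) :
    aeval (σ (m.x i)) p = σ (aeval (m.x i) p) :=
  aeval_algHom_apply σ.toAlgHom (m.x i) p

open scoped Classical in
/-- **A right component from an invariant subgroup.** -/
theorem exists_component (H : AddSubgroup (ZMod f.natDegree)) (hH : Inv m.group (· ∈ H)) :
    ∃ u q : K[X], f = q.comp u ∧ u.natDegree = Nat.card H := by
  haveI : NeZero f.natDegree := ⟨hn.ne'⟩
  have hf0 : f ≠ 0 := fun h => by simp [h] at hn
  set s : Finset (ZMod f.natDegree) := Finset.univ.filter (· ∈ H) with hs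
  have hmem : ∀ i, i ∈ s ↔ i ∈ H := fun i => by simp [hs]
  set k := Nat.card H
  have hk : s.card = k := by
    rw [hs, ← Fintype.card_subtype, ← Nat.card_eq_fintype_card]
  set D₀ : L[X] := ∏ i ∈ s, (X - C (m.x i)) with hD₀
  have hD₀mon : D₀.Monic := monic_prod_of_monic _ _ fun i _ => monic_X_sub_C _
  set ι : K[X] →+* L := (aeval (m.x 0)).toRingHom with hι
  let F := FractionRing K[X]
  set φ := algebraMap K[X] F with hφ
  let κ : F →+* L := IsFractionRing.lift (g := ι) m.transc
  have hκφ : κ.comp φ = ι := RingHom.ext fun p => IsFractionRing.lift_algebraMap m.transc p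
  -- the coefficients are rational in `x 0`
  have hlift : D₀ ∈ lifts κ := by
    rw [lifts_iff_coeff_lifts]
    intro j
    obtain ⟨a, b, hab⟩ := m.fixed (D₀.coeff j) fun σ hσ => by
      obtain ⟨π, hπ, hπ0, hσπ⟩ := m.exists_perm hn hσ
      have hmap : D₀.map (σ : L →+* L) = D₀ := by
        rw [hD₀, Polynomial.map_prod]
        refine Finset.prod_equiv π (fun i => ?_) fun i _ => ?_
        · rw [hmem, hmem]
          exact (iff_of_eq (hH π hπ hπ0 i)).symm
        · rw [Polynomial.map_sub, map_X, map_C]
          exact congrArg (fun z => X - C z) (hσπ i)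
      conv_rhs => rw [← hmap, coeff_map]
      rfl
    refine ⟨φ a / φ b, ?_⟩
    rw [map_div₀, hab]
    exact congrArg₂ (· / ·) (RingHom.congr_fun hκφ a) (RingHom.congr_fun hκφ b)
  obtain ⟨D', hD'map⟩ := (mem_lifts D₀).1 hlift
  have hD'mon : D'.Monic := monic_of_injective κ.injective (hD'map ▸ hD₀mon)
  set A : K[X][X] := C (C f.leadingCoeff⁻¹) * (f.map C - C f) with hA
  have hlc : f.leadingCoeff ≠ 0 := leadingCoeff_ne_zero.2 hf0
  have hAmon : A.Monic := by
    rw [hA, Monic, leadingCoeff_mul, leadingCoeff_C, leadingCoeff_sub_of_degree_lt,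
      leadingCoeff_map_of_injective C_injective, ← C_mul, inv_mul_cancel₀ hlc, C_1]
    rw [degree_map_eq_of_injective C_injective, degree_eq_natDegree hf0]
    exact degree_C_le.trans_lt (by exact_mod_cast hn)
  have hAι : A.map ι = C (algebraMap K L f.leadingCoeff⁻¹) * m.poly := by
    have hcomp : ι.comp C = algebraMap K L := RingHom.ext fun a => aeval_C _ a
    rw [hA, Polynomial.map_mul, Polynomial.map_sub, map_C, map_C, map_map, hcomp, poly]
    congr 1
    exact congrArg C (aeval_C _ _)
  have hlc' : algebraMap K L f.leadingCoeff⁻¹ ≠ 0 :=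
    (map_ne_zero (algebraMap K L)).2 (inv_ne_zero hlc)
  have hAdeg : (A.map ι).natDegree = f.natDegree := by
    rw [hAι, natDegree_C_mul hlc', m.natDegree_poly]
  have hAroots : (A.map ι).roots = (Finset.univ.image m.x).val := by
    refine (Multiset.eq_of_le_of_card_le ((Multiset.le_iff_subset (Finset.univ.image m.x).nodup).2
      fun y hy => ?_) ?_).symm
    · obtain ⟨i, -, rfl⟩ := Finset.mem_image.1 (Finset.mem_def.2 hy)
      rw [mem_roots (hAmon.map ι).ne_zero, IsRoot, hAι, eval_mul, m.eval_poly, mul_zero]
    · refine (card_roots' _).trans ?_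
      rw [hAdeg, Finset.card_val, Finset.card_image_of_injective _ m.inj, Finset.card_univ,
        ZMod.card]
  have hAsplits : (A.map ι).Splits := splits_iff_card_roots.2 (by
    rw [hAroots, hAdeg, Finset.card_val, Finset.card_image_of_injective _ m.inj, Finset.card_univ,
      ZMod.card])
  have hdvd' : D' ∣ A.map φ := by
    rw [← map_dvd_map κ κ.injective hD'mon, hD'map, map_map, hκφ, hD₀,
      ← Finset.prod_image (f := fun y => X - C y) m.inj.injOn]
    refine (Multiset.prod_X_sub_C_dvd_iff_le_roots (hAmon.map ι).ne_zero _).2 ?_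
    rw [hAroots]
    exact Finset.val_le_iff.2 (Finset.image_subset_image (Finset.subset_univ s))
  obtain ⟨D, hD⟩ := IsIntegrallyClosed.eq_map_mul_C_of_dvd F hAmon hdvd'
  rw [hD'mon.leadingCoeff, C_1, mul_one] at hD
  have hDmap : D.map ι = D₀ := by rw [← hκφ, ← map_map, hD, hD'map]
  have hDmon : D.Monic := monic_of_injective (IsFractionRing.injective K[X] F) (hD ▸ hD'mon)
  have hDdvd : D ∣ A := (map_dvd_map φ (IsFractionRing.injective K[X] F) hDmon).1 (hD ▸ hdvd')
  -- the translates
  have htr : ∀ j, D.map (aeval (m.x j)).toRingHom = ∏ i ∈ s, (X - C (m.x (i + j))) := by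
    intro j
    obtain ⟨σ, hσ⟩ := m.translations j
    have h := congrArg (Polynomial.map (σ : L →+* L)) hDmap
    rw [map_map, hD₀, Polynomial.map_prod] at h
    have e : (σ : L →+* L).comp ι = (aeval (m.x j)).toRingHom := RingHom.ext fun p => by
      show σ (aeval (m.x 0) p) = aeval (m.x j) p
      rw [← m.map_aeval, hσ]
      simp
    rw [e] at h
    rw [h]
    exact Finset.prod_congr rfl fun i _ => by
      rw [Polynomial.map_sub, map_X, map_C]
      exact congrArg (fun z => X - C z) (hσ i)
  have hiff : ∀ j, (D.map (aeval (m.x j)).toRingHom).eval (m.x 0) = 0 ↔ j ∈ H := by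
    intro j
    rw [htr, eval_prod, Finset.prod_eq_zero_iff]
    constructor
    · rintro ⟨i, hi, he⟩
      rw [eval_sub, eval_X, eval_C, sub_eq_zero] at he
      have := m.inj he
      rw [eq_neg_of_add_eq_zero_right this.symm]
      exact H.neg_mem ((hmem i).1 hi)
    · intro hj
      exact ⟨-j, (hmem _).2 (H.neg_mem hj), by simp⟩
  -- the degree in the other variable
  have hswapA : Bivariate.swap A = -A := by
    simp only [hA, map_mul, map_sub, Bivariate.swap_map_C, Bivariate.swap_C, map_C]
    ring
  set R := Bivariate.swap D with hR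
  have hRdvd : R ∣ A := by
    have := map_dvd Bivariate.swap hDdvd
    rw [hswapA] at this
    exact neg_neg A ▸ this.neg_right
  have hRlc : IsUnit R.leadingCoeff := by
    obtain ⟨E, hE⟩ := hRdvd
    have := congrArg leadingCoeff hE
    rw [hAmon.leadingCoeff, leadingCoeff_mul] at this
    exact IsUnit.of_mul_eq_one _ this.symm
  have heval : ∀ (P : K[X][X]) (j : ZMod f.natDegree),
      ((Bivariate.swap P).map ι).eval (m.x j) = (P.map (aeval (m.x j)).toRingHom).eval (m.x 0) := by
    intro P j
    induction P using Polynomial.induction_on' with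
    | add p q hp hq => simp [map_add, Polynomial.map_add, hp, hq]
    | monomial a p =>
      induction p using Polynomial.induction_on' with
      | add p q hp hq => simp [map_add, Polynomial.map_add, hp, hq]
      | monomial b r =>
        rw [Bivariate.swap_monomial_monomial, map_monomial, map_monomial, eval_monomial,
          eval_monomial, hι]
        show aeval (m.x 0) (monomial a r) * _ = aeval (m.x j) (monomial b r) * _
        rw [aeval_monomial, aeval_monomial]
        ring
  have hRne : R.map ι ≠ 0 := fun e => (hRlc.map ι).ne_zero (by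
    rw [leadingCoeff, ← coeff_map, e, coeff_zero])
  have hRdeg : R.natDegree ≤ k := by
    rw [← natDegree_map_of_leadingCoeff_ne_zero ι (hRlc.map ι).ne_zero,
      (hAsplits.of_dvd (hAmon.map ι).ne_zero (Polynomial.map_dvd ι hRdvd)).natDegree_eq_card_roots,
      ← hk, ← Finset.card_image_of_injective s m.inj, ← Finset.card_val]
    have hle := roots.le_of_dvd (hAmon.map ι).ne_zero (Polynomial.map_dvd ι hRdvd)
    rw [hAroots] at hle
    refine Multiset.card_le_card ((Multiset.le_iff_subset
      (Multiset.nodup_of_le hle (Finset.univ.image m.x).nodup)).2 fun y hy => ?_)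
    obtain ⟨j, -, rfl⟩ := Finset.mem_image.1 (Finset.mem_def.2 (Multiset.mem_of_le hle hy))
    rw [mem_roots hRne, IsRoot, hR, heval, hiff] at hy
    exact Finset.mem_image_of_mem _ ((hmem j).2 hy)
  have hcs : ∀ (Q : K[X][X]) (i j : ℕ),
      ((Bivariate.swap Q).coeff j).coeff i = (Q.coeff i).coeff j := by
    intro Q i j
    induction Q using Polynomial.induction_on' with
    | add p q hp hq => simp only [map_add, coeff_add, hp, hq]
    | monomial a p =>
      induction p using Polynomial.induction_on' with
      | add p q hp hq => simp only [map_add, coeff_add, hp, hq]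
      | monomial b r =>
        rw [Bivariate.swap_monomial_monomial]
        simp only [coeff_monomial]
        split_ifs <;> simp_all [coeff_monomial]
  have hbdeg : ∀ i, (D.coeff i).natDegree ≤ k := fun i => by
    rw [natDegree_le_iff_coeff_eq_zero]
    intro j hj
    rw [← hcs, ← hR, coeff_eq_zero_of_natDegree_lt (hRdeg.trans_lt hj), coeff_zero]
  have hconst : ∀ i, ∀ j ∈ s, aeval (m.x j) (D.coeff i) = aeval (m.x 0) (D.coeff i) := by
    intro i j hj
    have hsame : D.map (aeval (m.x j)).toRingHom = D.map ι := by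
      rw [htr, hDmap, hD₀]
      refine Finset.prod_equiv (Equiv.addRight j) (fun a => ?_) fun a _ => rfl
      rw [hmem, hmem, Equiv.coe_addRight, H.add_mem_cancel_right ((hmem j).1 hj)]
    have h := congrArg (fun P => Polynomial.coeff P i) hsame
    simp only [coeff_map] at h
    exact h
  have hx0 : (0 : ZMod f.natDegree) ∈ s := (hmem 0).2 H.zero_mem
  obtain ⟨i, hi⟩ : ∃ i, (D.coeff i).natDegree ≠ 0 := by
    by_contra hall
    push Not at hall
    obtain ⟨p, hp⟩ : ∃ p : K[X], D = p.map C :=
      ⟨∑ i ∈ Finset.range (D.natDegree + 1), C ((D.coeff i).coeff 0) * X ^ i, by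
        rw [Polynomial.map_sum]
        conv_lhs => rw [D.as_sum_range_C_mul_X_pow]
        exact Finset.sum_congr rfl fun i _ => by
          rw [Polynomial.map_mul, map_C, Polynomial.map_pow, map_X,
            ← eq_C_of_natDegree_eq_zero (hall i)]⟩
    have h0 : (D.map ι).eval (m.x 0) = 0 := by
      rw [hDmap, hD₀, eval_prod]
      exact Finset.prod_eq_zero hx0 (by simp)
    rw [hp, map_map, eval_map] at h0
    have h1 : aeval (m.x 0) p = 0 := by
      rw [aeval_def, ← h0]
      congr 1
      exact RingHom.ext fun a => (aeval_C _ a).symm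
    rw [m.transc (h1.trans (map_zero _).symm), Polynomial.map_zero] at hp
    exact hDmon.ne_zero hp
  set u := D.coeff i with hu
  have hu0 : 0 < u.natDegree := Nat.pos_of_ne_zero hi
  set U := aeval (m.x 0) u
  have hucard : u.natDegree = k := by
    refine le_antisymm (hbdeg i) ?_
    by_contra hlt
    have hzero : u.map (algebraMap K L) - C U = 0 :=
      eq_zero_of_natDegree_lt_card_of_eval_eq_zero' _ (s.image m.x) (fun y hy => by
        obtain ⟨j, hj, rfl⟩ := Finset.mem_image.1 hy
        rw [eval_sub, eval_C, eval_map_algebraMap, hconst i j hj, sub_self])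
        (by rw [natDegree_sub_C, natDegree_map, Finset.card_image_of_injective _ m.inj, hk]; omega)
    have := congrArg natDegree (sub_eq_zero.1 hzero)
    rw [natDegree_map, natDegree_C] at this
    omega
  obtain ⟨a, ha⟩ := Fermat.Agent.RittDecomposition.FullCycle.exists_expansion hu0 f
  refine ⟨u, a 0, ?_, hucard⟩
  have key : (∑ i ∈ Finset.range u.natDegree, C (aeval U (a i)) * X ^ i : L[X]) -
      C (aeval (m.x 0) f) = 0 := by
    refine eq_zero_of_natDegree_lt_card_of_eval_eq_zero' _ (s.image m.x) (fun y hy => ?_) ?_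
    · obtain ⟨j, hj, rfl⟩ := Finset.mem_image.1 hy
      rw [eval_sub, eval_C, sub_eq_zero, ← m.root j]
      rw [(congrArg (aeval (m.x j)) ha).trans (map_sum _ _ _)]
      rw [eval_finsetSum]
      refine Finset.sum_congr rfl fun l _ => ?_
      rw [eval_mul, eval_C, eval_pow, eval_X, map_mul, map_pow, aeval_X, aeval_comp,
        hconst i j hj]
    · rw [natDegree_sub_C, Finset.card_image_of_injective _ m.inj, hk, ← hucard]
      refine lt_of_le_of_lt (natDegree_sum_le_of_forall_le _ _ (n := u.natDegree - 1)
        fun l hl => ?_) (by omega)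
      rw [Finset.mem_range] at hl
      exact (natDegree_C_mul_X_pow_le _ _).trans (by omega)
  have hz : ∀ l ∈ Finset.range u.natDegree, l ≠ 0 → a l = 0 := by
    intro l hl h0
    have h1 := congrArg (fun P => Polynomial.coeff P l) key
    simp only [coeff_sub, finsetSum_coeff, coeff_C_mul, coeff_X_pow, mul_ite, mul_one, mul_zero,
      Finset.sum_ite_eq, if_pos hl, coeff_C, if_neg h0, sub_zero, coeff_zero] at h1
    have h2 : (a l).comp u = 0 := m.transc (by rw [aeval_comp, map_zero]; exact h1)
    rcases comp_eq_zero_iff.1 h2 with h | ⟨-, h⟩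
    · exact h
    · rw [h, natDegree_C] at hu0
      omega
  refine ha.trans ?_
  rw [Finset.sum_eq_single 0 (fun l hl h0 => by rw [hz l hl h0, zero_comp, zero_mul])
    (fun h => absurd (Finset.mem_range.2 hu0) h), pow_zero, mul_one]

omit hn in
include m in
/-- An indecomposable polynomial has no invariant subgroups. -/
theorem subPrim (hf : Indecomposable f) : SubPrim m.group := by
  intro H hH
  rcases eq_or_ne H ⊥ with hb | hb
  · exact Or.inl hb
  have hn : 0 < f.natDegree := lt_of_lt_of_le two_pos hf.1
  haveI : NeZero f.natDegree := ⟨hn.ne'⟩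
  refine Or.inr ?_
  obtain ⟨u, q, hfq, hu⟩ := m.exists_component hn H hH
  have hmul : f.natDegree = q.natDegree * u.natDegree := by rw [hfq, natDegree_comp]
  rcases hf.2 q u hfq with h | h
  · refine AddSubgroup.eq_top_of_card_eq H ?_
    rw [Nat.card_eq_fintype_card (α := ZMod f.natDegree), ZMod.card, ← hu, hmul, h, one_mul]
  · exact absurd (AddSubgroup.card_eq_one.1 (hu.symm.trans h)) hb

omit hn in
include m in
open scoped Classical in
/-- **Fried's theorem.** -/
theorem irreducible_quotient (hf : Indecomposable f) (hnp : ¬ f.natDegree.Prime) {Q : K[X][X]}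
    (hQ : (X - C X) * Q = f.map C - C f) : Irreducible Q := by
  have hn : 0 < f.natDegree := lt_of_lt_of_le two_pos hf.1
  haveI : NeZero f.natDegree := ⟨hn.ne'⟩
  have hf0 : f ≠ 0 := fun h => by simp [h] at hn
  have hlead : (f.map C - C f).natDegree = f.natDegree := by
    rw [natDegree_sub_C, natDegree_map_eq_of_injective C_injective]
  have hQ0 : Q ≠ 0 := fun h => by
    rw [h, mul_zero] at hQ
    rw [← hQ, natDegree_zero] at hlead
    omega
  have hQdeg : Q.natDegree + 1 = f.natDegree := by
    rw [← hlead, ← hQ, natDegree_mul (X_sub_C_ne_zero _) hQ0, natDegree_X_sub_C, add_comm]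
  have hQlc : IsUnit Q.leadingCoeff := by
    have := congrArg leadingCoeff hQ
    rw [leadingCoeff_mul, leadingCoeff_X_sub_C, one_mul, leadingCoeff_sub_of_degree_lt,
      leadingCoeff_map_of_injective C_injective] at this
    · rw [this]
      exact isUnit_C.2 (leadingCoeff_ne_zero.2 hf0).isUnit
    · rw [degree_map_eq_of_injective C_injective, degree_eq_natDegree hf0]
      exact degree_C_le.trans_lt (by exact_mod_cast hn)
  set ι : K[X] →+* L := (aeval (m.x 0)).toRingHom with hι
  have hQι : (X - C (m.x 0)) * Q.map ι = m.poly := by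
    have h := congrArg (Polynomial.map ι) hQ
    rw [Polynomial.map_mul, Polynomial.map_sub, Polynomial.map_sub, map_X, map_C, map_map,
      map_C] at h
    rw [show ι X = m.x 0 from aeval_X _] at h
    rw [h, poly, show ι.comp C = algebraMap K L from RingHom.ext fun a => aeval_C _ a]
    rfl
  have hproots : m.poly.roots = (Finset.univ.image m.x).val := by
    refine (Multiset.eq_of_le_of_card_le ((Multiset.le_iff_subset (Finset.univ.image m.x).nodup).2
      fun y hy => ?_) ?_).symm
    · obtain ⟨i, -, rfl⟩ := Finset.mem_image.1 (Finset.mem_def.2 hy)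
      exact (mem_roots (m.poly_ne_zero hn)).2 (m.eval_poly i)
    · refine (card_roots' _).trans ?_
      rw [m.natDegree_poly, Finset.card_val, Finset.card_image_of_injective _ m.inj,
        Finset.card_univ, ZMod.card]
  have hpsplits : m.poly.Splits := splits_iff_card_roots.2 (by
    rw [hproots, m.natDegree_poly, Finset.card_val, Finset.card_image_of_injective _ m.inj,
      Finset.card_univ, ZMod.card])
  have hx0 : (Q.map ι).eval (m.x 0) ≠ 0 := fun h => by
    obtain ⟨R, hR⟩ := dvd_iff_isRoot.2 h
    have hne := m.poly_ne_zero hn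
    rw [← hQι, hR] at hne
    have hcount := Multiset.nodup_iff_count_le_one.1
      (hproots ▸ (Finset.univ.image m.x).nodup) (m.x 0)
    rw [← hQι, hR, roots_mul hne, roots_mul (mul_ne_zero_iff.1 hne).2, roots_X_sub_C,
      Multiset.count_add, Multiset.count_add] at hcount
    simp at hcount
  refine ⟨fun h => ?_, fun D E hDE => ?_⟩
  · have := natDegree_eq_zero_of_isUnit h
    rw [this, zero_add] at hQdeg
    exact absurd hf.1 (by omega)
  have hne := mul_ne_zero_iff.1 (hDE ▸ hQ0)
  have hunits : IsUnit D.leadingCoeff ∧ IsUnit E.leadingCoeff := by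
    rwa [hDE, leadingCoeff_mul, IsUnit.mul_iff] at hQlc
  have hsum : Q.natDegree = D.natDegree + E.natDegree := by rw [hDE, natDegree_mul hne.1 hne.2]
  rcases Nat.eq_zero_or_pos D.natDegree with h0 | hD
  · refine Or.inl ?_
    rw [eq_C_of_natDegree_eq_zero h0, isUnit_C]
    have := hunits.1
    rwa [leadingCoeff, h0] at this
  suffices hE : E.natDegree = 0 by
    refine Or.inr ?_
    rw [eq_C_of_natDegree_eq_zero hE, isUnit_C]
    have := hunits.2
    rwa [leadingCoeff, hE] at this
  have hDdvd : D.map ι ∣ m.poly := by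
    rw [← hQι, hDE, Polynomial.map_mul]
    exact dvd_mul_of_dvd_right (dvd_mul_right _ _) _
  have hDdeg : (D.map ι).natDegree = D.natDegree :=
    natDegree_map_of_leadingCoeff_ne_zero ι (hunits.1.map ι).ne_zero
  have hDne : D.map ι ≠ 0 := fun e => by rw [e, natDegree_zero] at hDdeg; omega
  obtain ⟨y, hy⟩ : ∃ y, y ∈ (D.map ι).roots := Multiset.exists_mem_of_ne_zero fun e => by
    have := (hpsplits.of_dvd (m.poly_ne_zero hn) hDdvd).natDegree_eq_card_roots
    rw [e, Multiset.card_zero, hDdeg] at this
    omega
  obtain ⟨a, rfl⟩ := exists_eq_of_root m.inj (m.poly_ne_zero hn) m.natDegree_poly.le m.eval_poly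
    (show m.poly.eval y = 0 by
      obtain ⟨R, hR⟩ := hDdvd
      rw [hR, eval_mul, (mem_roots hDne).1 hy, zero_mul])
  have ha : (D.map ι).eval (m.x a) = 0 := (mem_roots hDne).1 hy
  have ha0 : a ≠ 0 := fun e => hx0 (by rw [hDE, Polynomial.map_mul, eval_mul, ← e, ha, zero_mul])
  have hall : ∀ b ∈ (Finset.univ : Finset (ZMod f.natDegree)).erase 0,
      (D.map ι).eval (m.x b) = 0 := by
    intro b hb
    obtain ⟨π, ⟨σ, hσ⟩, h0, hπ⟩ :=
      mem_orb_of_composite m.translations (m.subPrim hf) hf.1 hnp ha0 (Finset.ne_of_mem_erase hb)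
    have hfix : (D.map ι).map (σ : L →+* L) = D.map ι := by
      rw [map_map]
      congr 1
      refine RingHom.ext fun p => ?_
      show σ (aeval (m.x 0) p) = aeval (m.x 0) p
      rw [← m.map_aeval, hσ, h0]
    have h := congrArg σ ha
    rw [map_zero] at h
    rw [← hπ, ← hσ a, ← hfix]
    exact (eval_map_apply (p := D.map ι) (f := (σ : L →+* L)) (m.x a)).trans h
  have hge : f.natDegree - 1 ≤ D.natDegree := by
    by_contra hlt
    refine hDne (eq_zero_of_natDegree_lt_card_of_eval_eq_zero' _
      (((Finset.univ : Finset (ZMod f.natDegree)).erase 0).image m.x) (fun y hy => ?_) ?_)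
    · obtain ⟨b, hb, rfl⟩ := Finset.mem_image.1 hy
      exact hall b hb
    · rw [Finset.card_image_of_injective _ m.inj, Finset.card_erase_of_mem (Finset.mem_univ _),
        Finset.card_univ, ZMod.card, hDdeg]
      omega
  omega

end Mono

/-- **Fried's theorem**, without the monodromy. -/
theorem irreducible_of_indecomposable [CharZero K] (hf : Indecomposable f)
    (hnp : ¬ f.natDegree.Prime) {Q : K[X][X]} (hQ : (X - C X) * Q = f.map C - C f) :
    Irreducible Q := by
  obtain ⟨L, ⟨m⟩⟩ := exists_mono (f := f) (lt_of_lt_of_le two_pos hf.1)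
  exact m.irreducible_quotient hf hnp hQ

end FA.SchurBGroup

end
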