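import Fermat.Agent.SchurBGroup.Orbits
import Mathlib.Algebra.CharP.Lemmas
import Mathlib.Algebra.CharP.Algebra
import Mathlib.Algebra.MonoidAlgebra.Basic
import Mathlib.Algebra.Field.ZMod

/-!
# Orbits are unions of cosets of the subgroup of order `p`

By the Frobenius map the number of `x` in an orbit with `p x = z` is, modulo `p`, invariant in `z`,
so it vanishes for `z ≠ 0`.
-/

set_option autoImplicit false
set_option linter.style.haveILetI false

noncomputable section

open Finset
open scoped Classical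

namespace FA.SchurBGroup

variable {n : ℕ} [NeZero n] {G : Subgroup (Equiv.Perm (ZMod n))} (hG : Translations G)
  {p : ℕ} [hp : Fact p.Prime] (hpn : p ∣ n)

/-- An element of order `p`. -/
def step (n p : ℕ) : ZMod n := (n / p : ℕ)

omit [NeZero n] hp in
include hpn in
theorem mul_step : (p : ZMod n) * step n p = 0 := by
  rw [step, ← Nat.cast_mul, Nat.mul_div_cancel' hpn, ZMod.natCast_self]

include hpn in
theorem step_ne_zero : step n p ≠ 0 := by
  rw [step, Ne, ZMod.natCast_eq_zero_iff]
  refine Nat.not_dvd_of_pos_of_lt (Nat.div_pos (Nat.le_of_dvd (NeZero.pos n) hpn) hp.out.pos) ?_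
  exact Nat.div_lt_self (NeZero.pos n) hp.out.one_lt

include hpn in
/-- The solutions of `p w = p x`. -/
theorem eq_add_step {x w : ZMod n} (h : (p : ZMod n) * w = p * x) :
    ∃ i < p, w = x + i * step n p := by
  have h1 : (p : ZMod n) * ((w - x).val : ZMod n) = 0 := by
    rw [ZMod.natCast_zmod_val, mul_sub, h, sub_self]
  rw [← Nat.cast_mul, ZMod.natCast_eq_zero_iff] at h1
  obtain ⟨e, he⟩ := hpn
  have h2 : p * e ∣ p * (w - x).val := by rwa [← he]
  obtain ⟨i, hi⟩ := Nat.dvd_of_mul_dvd_mul_left hp.out.pos h2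
  refine ⟨i, ?_, ?_⟩
  · have := ZMod.val_lt (w - x)
    rw [hi] at this
    exact Nat.lt_of_mul_lt_mul_left (this.trans_eq (he.trans (mul_comm p e)))
  · have hm : n / p = e := by rw [he, Nat.mul_div_cancel_left _ hp.out.pos]
    rw [step, hm, mul_comm, ← Nat.cast_mul, ← hi, ZMod.natCast_zmod_val, add_sub_cancel]

/-- The fibre of multiplication by `p`. -/
def fib (n p : ℕ) [NeZero n] (x : ZMod n) : Finset (ZMod n) :=
  univ.filter fun w => (p : ZMod n) * w = p * x

include hpn in
theorem card_fib (x : ZMod n) : (fib n p x).card = p := by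
  have he : fib n p x = (range p).image fun i : ℕ => x + i * step n p := by
    ext w
    simp only [fib, mem_filter, mem_univ, true_and, mem_image, mem_range]
    refine ⟨fun h => (eq_add_step hpn h).imp fun i hi => ⟨hi.1, hi.2.symm⟩, ?_⟩
    rintro ⟨i, -, rfl⟩
    rw [mul_add, mul_left_comm, mul_step hpn, mul_zero, add_zero]
  rw [he, card_image_of_injOn, card_range]
  intro i hi j hj h
  simp only [coe_range, Set.mem_Iio] at hi hj
  have h' := add_left_cancel h
  rw [step, ← Nat.cast_mul, ← Nat.cast_mul, ZMod.natCast_eq_natCast_iff'] at h'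
  have hm : 0 < n / p := Nat.div_pos (Nat.le_of_dvd (NeZero.pos n) hpn) hp.out.pos
  have hlt : ∀ k < p, k * (n / p) < n := fun k hk =>
    (Nat.mul_lt_mul_of_pos_right hk hm).trans_le (le_of_eq (Nat.mul_div_cancel' hpn))
  rw [Nat.mod_eq_of_lt (hlt i hi), Nat.mod_eq_of_lt (hlt j hj)] at h'
  exact Nat.eq_of_mul_eq_mul_right hm h'

omit [NeZero n] in
/-- The group algebra over `𝔽_p` has characteristic `p`. -/
theorem charP_algebra : CharP (AddMonoidAlgebra (ZMod p) (ZMod n)) p :=
  charP_of_injective_algebraMap (algebraMap (ZMod p) (AddMonoidAlgebra (ZMod p) (ZMod n))).injective p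

include hG in
/-- Powers of an invariant element are invariant. -/
theorem inv_coeff_pow {X : AddMonoidAlgebra (ZMod p) (ZMod n)} (hX : Inv G X.coeff) :
    ∀ k, Inv G (X ^ (k + 1)).coeff := by
  intro k
  induction k with
  | zero => rwa [zero_add, pow_one]
  | succ k ih =>
    have h := hX.conv hG ih
    intro σ hσ h0 z
    have e : ∀ z, (X ^ (k + 1 + 1)).coeff z = ∑ x, X.coeff x * (X ^ (k + 1)).coeff (z - x) := fun z => by
      rw [pow_succ' X, AddMonoidAlgebra.coeff_mul, Finsupp.sum_fintype _ _ (fun _ => by simp)]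
      refine sum_congr rfl fun x _ => ?_
      rw [Finsupp.sum_fintype _ _ (fun _ => by simp), sum_eq_single (z - x)]
      · simp
      · intro y _ hy
        rw [if_neg fun e => hy (by rw [← e]; simp)]
      · simp
    rw [e, e]
    exact h σ hσ h0 z

include hG in
/-- The number of points of an invariant set over `z`, modulo `p`, is invariant. -/
theorem inv_card_mod {T : Finset (ZMod n)} (hT : Inv G (· ∈ T)) :
    Inv G fun z => ((T.filter fun x => (p : ZMod n) * x = z).card : ZMod p) := by
  haveI := charP_algebra (n := n) (p := p)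
  set X : AddMonoidAlgebra (ZMod p) (ZMod n) := ∑ x ∈ T, AddMonoidAlgebra.single x 1 with hXdef
  have hX : Inv G X.coeff := fun σ hσ h0 x => by
    simp only [hXdef, AddMonoidAlgebra.coeff_sum, AddMonoidAlgebra.coeff_single,
      Finsupp.finsetSum_apply, Finsupp.single_apply, sum_ite_eq']
    exact if_congr (iff_of_eq (hT σ hσ h0 x)) rfl rfl
  have he : X ^ p = ∑ x ∈ T, AddMonoidAlgebra.single ((p : ZMod n) * x) 1 := by
    rw [hXdef, sum_pow_char]
    exact sum_congr rfl fun x _ => by
      rw [AddMonoidAlgebra.single_pow, one_pow, nsmul_eq_mul]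
  have h := inv_coeff_pow hG hX (p - 1)
  rw [Nat.sub_add_cancel hp.out.one_le, he] at h
  intro σ hσ h0 z
  have := h σ hσ h0 z
  simpa [AddMonoidAlgebra.coeff_sum, Finsupp.single_apply, sum_boole] using this

include hG hpn in
/-- **Fullness.** -/
theorem mem_of_mul_eq (hprim : SubPrim G) {T : Finset (ZMod n)} (hT : Inv G (· ∈ T)) {x w : ZMod n}
    (hx : x ∈ T) (hx0 : (p : ZMod n) * x ≠ 0) (hw : (p : ZMod n) * w = p * x) : w ∈ T := by
  set g : ZMod n → ZMod p := fun z => ((T.filter fun x => (p : ZMod n) * x = z).card : ZMod p)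
  have hproper : (AddMonoidHom.mulLeft (p : ZMod n)).range ≠ ⊤ := fun h => by
    obtain ⟨y, hy⟩ := (h ▸ AddSubgroup.mem_top (1 : ZMod n) :
      (1 : ZMod n) ∈ (AddMonoidHom.mulLeft (p : ZMod n)).range)
    have := congrArg (ZMod.castHom hpn (ZMod p)) hy
    rw [AddMonoidHom.coe_mulLeft, map_mul, map_natCast, ZMod.natCast_self, zero_mul, map_one] at this
    exact zero_ne_one this
  have hg : g (p * x) = 0 := by
    by_contra hne
    refine hx0 (hprim.eq_zero hG (P := fun z => g z ≠ 0) ((inv_card_mod hG hT).comp G (· ≠ 0))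
      hproper (fun z hz => ?_) hne)
    have hc : (T.filter fun x => (p : ZMod n) * x = z).card ≠ 0 := fun h0 =>
      hz (by simp only [g, h0, Nat.cast_zero])
    obtain ⟨y, hy⟩ := card_ne_zero.1 hc
    exact ⟨y, (mem_filter.1 hy).2⟩
  rw [ZMod.natCast_eq_zero_iff] at hg
  have hsub : T.filter (fun y => (p : ZMod n) * y = p * x) ⊆ fib n p x := fun y hy => by
    simp only [fib, mem_filter, mem_univ, true_and]
    exact (mem_filter.1 hy).2
  have heq : T.filter (fun y => (p : ZMod n) * y = p * x) = fib n p x := by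
    refine eq_of_subset_of_card_le hsub ?_
    rw [card_fib hpn]
    exact Nat.le_of_dvd (card_pos.2 ⟨x, mem_filter.2 ⟨hx, rfl⟩⟩) hg
  have hmem : w ∈ fib n p x := by simp [fib, hw]
  rw [← heq] at hmem
  exact (mem_filter.1 hmem).1

include hG hpn in
/-- Every orbit meets the subgroup of order `p`. -/
theorem exists_kill (hprim : SubPrim G) {x : ZMod n} (hx : x ≠ 0) :
    ∃ k ∈ orb G x, k ≠ 0 ∧ (p : ZMod n) * k = 0 := by
  suffices ∃ k ∈ orb G x, (p : ZMod n) * k = 0 by
    obtain ⟨k, hk, hk'⟩ := this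
    exact ⟨k, hk, fun h => zero_notMem_orb G hx (h ▸ hk), hk'⟩
  by_contra hno
  push Not at hno
  set T : Finset (ZMod n) := univ.filter (· ∈ orb G x) with hTdef
  have hmemT : ∀ y, y ∈ T ↔ y ∈ orb G x := fun y => by simp [hTdef]
  have hT : Inv G (· ∈ T) := fun σ hσ h0 y =>
    propext (((hmemT _).trans (iff_of_eq (inv_orb G x σ hσ h0 y))).trans (hmemT y).symm)
  let H : AddSubgroup (ZMod n) :=
    { carrier := {g | ∀ w ∈ orb G x, w - g ∈ orb G x}
      zero_mem' := fun w hw => by simpa using hw
      add_mem' := fun {a b} ha hb w hw => by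
        have := hb _ (ha w hw)
        rwa [sub_sub] at this
      neg_mem' := fun {a} ha w hw => by
        have hinj : Function.Injective fun v : orb G x => (⟨v - a, ha v v.2⟩ : orb G x) :=
          fun u v h => Subtype.ext (sub_left_injective (congrArg Subtype.val h))
        obtain ⟨v, hv⟩ := Finite.injective_iff_surjective.1 hinj ⟨w, hw⟩
        have hv' : (v : ZMod n) - a = w := congrArg Subtype.val hv
        rw [sub_neg_eq_add, ← hv', sub_add_cancel]
        exact v.2 }
  have hH : Inv G (· ∈ H) := by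
    have key : ∀ σ ∈ G, σ 0 = 0 → ∀ g ∈ H, σ g ∈ H := by
      intro σ hσ h0 g hg w hw
      have hw' : σ.symm w ∈ orb G x := by
        have h : (σ (σ.symm w) ∈ orb G x) = (σ.symm w ∈ orb G x) := inv_orb G x σ hσ h0 _
        rwa [Equiv.apply_symm_apply, eq_iff_iff, iff_true_left hw] at h
      have h : (σ (σ.symm w) - σ g ∈ orb G x) = (σ.symm w - g ∈ orb G x) :=
        (inv_orb G x).sub hG hσ g (σ.symm w)
      rw [Equiv.apply_symm_apply] at h
      exact h.symm ▸ hg _ hw'
    intro σ hσ h0 g
    refine propext ⟨fun h => ?_, key σ hσ h0 g⟩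
    simpa [Equiv.Perm.inv_def] using key σ⁻¹ (inv_mem hσ)
      (by simp [Equiv.Perm.inv_def, Equiv.symm_apply_eq, h0]) _ h
  have hstep : step n p ∈ H := fun w hw => by
    rw [← hmemT]
    refine mem_of_mul_eq hG hpn hprim hT ((hmemT w).2 hw) (hno w hw) ?_
    rw [mul_sub, mul_step hpn, sub_zero]
  rcases hprim H hH with h | h
  · exact step_ne_zero hpn (AddSubgroup.mem_bot.1 (h ▸ hstep))
  · have := (h ▸ AddSubgroup.mem_top x : x ∈ H) x (mem_orb_self G x)
    rw [sub_self] at this
    exact zero_notMem_orb G hx this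

end FA.SchurBGroup

end
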