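import Fermat.Agent.SchurBGroup.Fullness
import Mathlib.Analysis.SpecialFunctions.Complex.CircleAddChar
import Mathlib.RingTheory.Polynomial.Cyclotomic.Roots

/-!
# Schur's theorem

With two prime divisors the orbits all contain the elements of one prime order. If `p ^ 2 ∣ n` the
characters nontrivial on the subgroup of order `p` separate the invariant functions, so the one
induced by `x mod p` agrees with one of them, and the linear independence of the `p`th roots of
unity leaves one orbit.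
-/

set_option autoImplicit false
set_option linter.style.haveILetI false

noncomputable section

open Finset
open scoped Classical

namespace FA.SchurBGroup

/-- The rational relations between the `p`th roots of unity. -/
theorem eq_of_sum_pow_eq_zero {p : ℕ} [hp : Fact p.Prime] {ζ : ℂ} (hζ : IsPrimitiveRoot ζ p)
    {c : ℕ → ℤ} (h : ∑ b ∈ range p, (c b : ℂ) * ζ ^ b = 0) {i j : ℕ} (hi : i < p) (hj : j < p) :
    c i = c j := by
  suffices key : ∀ i < p, c i = c (p - 1) by rw [key i hi, key j hj]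
  intro i hi
  set P : Polynomial ℚ :=
    ∑ b ∈ range p, Polynomial.monomial b ((c b : ℚ) - c (p - 1)) with hP
  have hP0 : P = 0 := by
    by_contra hne
    have hroot : Polynomial.aeval ζ P = 0 := by
      simp only [hP, map_sum, Polynomial.aeval_monomial, map_sub, map_intCast, sub_mul,
        sum_sub_distrib, h, ← mul_sum, hζ.geom_sum_eq_zero hp.out.one_lt, mul_zero, sub_zero]
    have h1 := minpoly.degree_le_of_ne_zero ℚ ζ hne hroot
    rw [← Polynomial.cyclotomic_eq_minpoly_rat hζ hp.out.pos, Polynomial.degree_cyclotomic,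
      Nat.totient_prime hp.out] at h1
    have h2 : P.degree < ((p - 1 : ℕ) : WithBot ℕ) := by
      rw [Polynomial.degree_lt_iff_coeff_zero]
      intro k hk
      simp only [hP, Polynomial.finsetSum_coeff, Polynomial.coeff_monomial, sum_ite_eq', mem_range]
      split_ifs with hkp
      · rw [show k = p - 1 by omega, sub_self]
      · rfl
    exact absurd (h1.trans_lt h2) (lt_irrefl _)
  have h3 := congrArg (fun Q => Polynomial.coeff Q i) hP0
  simp only [hP, Polynomial.finsetSum_coeff, Polynomial.coeff_monomial, sum_ite_eq', mem_range,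
    if_pos hi, Polynomial.coeff_zero, sub_eq_zero] at h3
  exact_mod_cast h3

variable {n : ℕ} [NeZero n] {G : Subgroup (Equiv.Perm (ZMod n))} (hG : Translations G)
  (hprim : SubPrim G)

/-- The orbit as a finite set. -/
def orbFinset (G : Subgroup (Equiv.Perm (ZMod n))) (x : ZMod n) : Finset (ZMod n) :=
  univ.filter (· ∈ orb G x)

theorem mem_orbFinset {x y : ZMod n} : y ∈ orbFinset G x ↔ y ∈ orb G x := by simp [orbFinset]

theorem inv_orbFinset (x : ZMod n) : Inv G (· ∈ orbFinset G x) := fun σ hσ h0 y =>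
  propext ((mem_orbFinset.trans (iff_of_eq (inv_orb G x σ hσ h0 y))).trans mem_orbFinset.symm)

include hG hprim in
theorem mem_orb_of_mul_eq {p : ℕ} [Fact p.Prime] (hpn : p ∣ n) {x y w : ZMod n}
    (hy : y ∈ orb G x) (hy0 : (p : ZMod n) * y ≠ 0) (hw : (p : ZMod n) * w = p * y) :
    w ∈ orb G x :=
  mem_orbFinset.1 (mem_of_mul_eq hG hpn hprim (inv_orbFinset x) (mem_orbFinset.2 hy) hy0 hw)

include hG hprim in
/-- The case of two primes. -/
theorem mem_orb_of_two_primes {p q : ℕ} [Fact p.Prime] [Fact q.Prime] (hpn : p ∣ n) (hqn : q ∣ n)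
    (hpq : p ≠ q) {x y : ZMod n} (hx : x ≠ 0) (hy : y ≠ 0) : y ∈ orb G x := by
  have hco : p.Coprime q := (Nat.coprime_primes Fact.out Fact.out).2 hpq
  have hkill : ∀ z : ZMod n, (p : ZMod n) * z = 0 → (q : ZMod n) * z = 0 → z = 0 := by
    intro z h1 h2
    have h := congrArg (fun t : ℤ => (t : ZMod n) * z) (Nat.gcd_eq_gcd_ab p q)
    simp only [hco.gcd_eq_one, Nat.cast_one, Int.cast_one, one_mul, Int.cast_add, Int.cast_mul,
      Int.cast_natCast, add_mul, mul_right_comm _ _ z, h1, h2, zero_mul, add_zero] at h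
    exact h
  set l := step n q
  have hl0 := step_ne_zero (n := n) hqn
  have hlp : (p : ZMod n) * l ≠ 0 := fun h => hl0 (hkill l h (mul_step hqn))
  suffices key : ∀ z : ZMod n, z ≠ 0 → l ∈ orb G z from orb_trans G (key x hx) (orb_symm G (key y hy))
  intro z hz
  obtain ⟨k, hk, hk0, hpk⟩ := exists_kill hG hpn hprim hz
  have hkq : (q : ZMod n) * k ≠ 0 := fun h => hk0 (hkill k hpk h)
  have h1 : k + l ∈ orb G z := mem_orb_of_mul_eq hG hprim hqn hk hkq (by
    rw [mul_add, mul_step hqn, add_zero])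
  exact mem_orb_of_mul_eq hG hprim hpn h1 (by rwa [mul_add, hpk, zero_add]) (by
    rw [mul_add, hpk, zero_add])

/-- The character `x ↦ ψ (c x)` evaluated on a function. -/
def phi (c : ZMod n) (f : ZMod n → ℂ) : ℂ := ∑ x, f x * ZMod.stdAddChar (c * x)

theorem phi_conv (c : ZMod n) (f g : ZMod n → ℂ) :
    phi c (fun z => ∑ x, f x * g (z - x)) = phi c f * phi c g := by
  simp only [phi, sum_mul_sum]
  simp only [sum_mul]
  rw [sum_comm]
  refine sum_congr rfl fun x _ => ?_
  refine Fintype.sum_equiv (Equiv.subRight x) _ _ fun z => ?_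
  rw [Equiv.subRight_apply, show c * z = c * (z - x) + c * x by ring, AddChar.map_add_eq_mul]
  ring

theorem phi_sub_const (c : ZMod n) (f : ZMod n → ℂ) (a : ℂ) :
    phi c (fun z => f z - if z = 0 then a else 0) = phi c f - a := by
  simp [phi, sub_mul, sum_sub_distrib]

omit [NeZero n] in
/-- A sum changing by a factor `≠ 1` under a shift is `0`. -/
theorem sum_eq_zero_of_shift {R : Type*} [CommRing R] [IsDomain R] (s : Finset (ZMod n))
    {h : ZMod n → R} {a : ZMod n} {u : R} (hu : u ≠ 1) (hs : ∀ x, x + a ∈ s ↔ x ∈ s)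
    (hh : ∀ x ∈ s, h (x + a) = u * h x) : ∑ x ∈ s, h x = 0 := by
  have h1 : ∑ x ∈ s, h x = u * ∑ x ∈ s, h x := by
    rw [mul_sum]
    refine sum_nbij' (fun x => x - a) (fun x => x + a) (fun x hx => ?_) (fun x hx => (hs x).2 hx)
      (fun x _ => sub_add_cancel x a) (fun x _ => add_sub_cancel_right x a) fun x hx => ?_
    · exact (hs _).1 (by rwa [sub_add_cancel])
    · rw [← hh (x - a) ((hs _).1 (by rwa [sub_add_cancel])), sub_add_cancel]
  rcases eq_or_ne (∑ x ∈ s, h x) 0 with h0 | h0
  · exact h0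
  · exact absurd ((mul_eq_right₀ h0).1 h1.symm) hu

section PrimePower

variable {p : ℕ} [hp : Fact p.Prime]

include hG hprim in
/-- Outside the subgroup of order `p` the twisted sums vanish. -/
theorem sum_outside {f : ZMod n → ℂ} (hf : Inv G f) (hpn : p ∣ n) {c : ZMod n}
    (hc : c * step n p ≠ 0) :
    ∑ x ∈ univ.filter (fun x : ZMod n => (p : ZMod n) * x ≠ 0), f x * ZMod.stdAddChar (c * x) = 0 := by
  refine sum_eq_zero_of_shift _ (a := step n p) (u := ZMod.stdAddChar (c * step n p))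
    (fun h => hc (ZMod.injective_stdAddChar (h.trans (AddChar.map_zero_eq_one _).symm)))
    (fun x => by simp [mul_add, mul_step hpn]) fun x hx => ?_
  rw [mem_filter] at hx
  have hw : x + step n p ∈ orb G x := mem_orb_of_mul_eq hG hprim hpn (mem_orb_self G x) hx.2 (by
    rw [mul_add, mul_step hpn, add_zero])
  rw [hf.apply_orb G hw, mul_add, AddChar.map_add_eq_mul]
  ring

theorem mul_step_eq_zero_iff (hpn : p ∣ n) (b : ℕ) :
    (b : ZMod n) * step n p = 0 ↔ p ∣ b := by
  have hm : 0 < n / p := Nat.div_pos (Nat.le_of_dvd (NeZero.pos n) hpn) hp.out.pos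
  rw [step, ← Nat.cast_mul, ZMod.natCast_eq_zero_iff]
  constructor
  · intro h
    have h' : p * (n / p) ∣ b * (n / p) := by rwa [Nat.mul_div_cancel' hpn]
    exact Nat.dvd_of_mul_dvd_mul_right hm h'
  · rintro ⟨e, rfl⟩
    exact ⟨e, by rw [mul_right_comm, Nat.mul_div_cancel' hpn]⟩

include hG hprim in
/-- The characters nontrivial on the subgroup of order `p`, and the trivial one, separate. -/
theorem eq_zero_of_phi {f : ZMod n → ℂ} (hf : Inv G f) (hpn : p ∣ n)
    (h : ∀ c : ZMod n, c = 0 ∨ c * step n p ≠ 0 → phi c f = 0) : f = 0 := by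
  set K := univ.filter fun x : ZMod n => (p : ZMod n) * x = 0
  have hA : ∀ c : ZMod n, c * step n p ≠ 0 → ∑ k ∈ K, f k * ZMod.stdAddChar (c * k) = 0 :=
    fun c hc => by
      have h1 := h c (Or.inr hc)
      rw [phi, ← sum_filter_add_sum_filter_not univ (fun x : ZMod n => (p : ZMod n) * x = 0)] at h1
      rwa [show ∑ x ∈ univ.filter (fun x : ZMod n => ¬(p : ZMod n) * x = 0),
        f x * ZMod.stdAddChar (c * x) = 0 from sum_outside hG hprim hf hpn hc, add_zero] at h1
  have hconst : ∀ j ∈ K, f j * (p : ℂ) = ∑ k ∈ K, f k := by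
    intro j hj
    calc f j * (p : ℂ) = ∑ k ∈ K, f k * ∑ b ∈ range p, ZMod.stdAddChar ((b : ZMod n) * (k - j)) := by
          rw [sum_eq_single j]
          · simp
          · intro k hk hkj
            simp only [K, mem_filter, mem_univ, true_and] at hk hj
            obtain ⟨i, hi, hik⟩ := eq_add_step hpn (hk.trans hj.symm)
            have hi0 : ¬ p ∣ i := fun hd => hkj (by
              rw [hik, (mul_step_eq_zero_iff hpn i).2 hd, add_zero])
            rw [mul_eq_zero]
            refine Or.inr ?_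
            set z := ZMod.stdAddChar ((i : ZMod n) * step n p)
            have hz1 : z ≠ 1 := fun e => hi0 ((mul_step_eq_zero_iff hpn i).1
              (ZMod.injective_stdAddChar (e.trans (AddChar.map_zero_eq_one _).symm)))
            have hzp : z ^ p = 1 := by
              rw [← AddChar.map_nsmul_eq_pow, nsmul_eq_mul, mul_left_comm, mul_step hpn, mul_zero,
                AddChar.map_zero_eq_one]
            rw [sum_congr rfl fun b _ => by
              rw [hik, add_sub_cancel_left, ← nsmul_eq_mul, AddChar.map_nsmul_eq_pow]]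
            rw [geom_sum_eq hz1, hzp, sub_self, zero_div]
          · exact fun h => absurd hj h
      _ = ∑ b ∈ range p, ZMod.stdAddChar (-((b : ZMod n) * j)) *
            ∑ k ∈ K, f k * ZMod.stdAddChar ((b : ZMod n) * k) := by
          simp only [mul_sum]
          rw [sum_comm]
          refine sum_congr rfl fun b _ => sum_congr rfl fun k _ => ?_
          rw [mul_sub, sub_eq_neg_add, AddChar.map_add_eq_mul]
          ring
      _ = ∑ k ∈ K, f k := by
          rw [sum_eq_single 0]
          · simp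
          · intro b hb hb0
            rw [hA _ fun e => hb0 (Nat.eq_zero_of_dvd_of_lt ((mul_step_eq_zero_iff hpn b).1 e)
              (mem_range.1 hb)), mul_zero]
          · exact fun h => absurd (mem_range.2 hp.out.pos) h
  have hall : ∀ x, f x = f 0 := by
    intro x
    rcases eq_or_ne x 0 with rfl | hx
    · rfl
    obtain ⟨k, hk, -, hpk⟩ := exists_kill hG hpn hprim hx
    rw [← hf.apply_orb G hk]
    exact mul_right_cancel₀ (Nat.cast_ne_zero.2 hp.out.ne_zero)
      ((hconst k (by simp [K, hpk])).trans (hconst 0 (by simp [K])).symm)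
  funext x
  have h0 := h 0 (Or.inl rfl)
  simp only [phi, zero_mul, AddChar.map_zero_eq_one, mul_one, hall, sum_const, card_univ,
    ZMod.card, nsmul_eq_mul, mul_eq_zero, Nat.cast_eq_zero, NeZero.ne n, false_or] at h0
  rw [hall, h0, Pi.zero_apply]

include hG hprim in
/-- Every multiplicative evaluation is one of the separating ones. -/
theorem exists_phi_eq (hpn : p ∣ n) (e : ZMod n) :
    ∃ c : ZMod n, (c = 0 ∨ c * step n p ≠ 0) ∧ ∀ f, Inv G f → phi e f = phi c f := by
  by_contra hno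
  push Not at hno
  set Cs := univ.filter fun c : ZMod n => c = 0 ∨ c * step n p ≠ 0
  have key : ∀ s ⊆ Cs, ∃ F, Inv G F ∧ phi e F ≠ 0 ∧ ∀ c ∈ s, phi c F = 0 := by
    intro s
    induction s using Finset.induction with
    | empty =>
      refine fun _ => ⟨fun z => if z = 0 then 1 else 0, fun σ hσ h0 x => ?_, ?_, by simp⟩
      · exact if_congr ⟨fun h => σ.injective (h.trans h0.symm), fun h => by rw [h, h0]⟩ rfl rfl
      · simp [phi]
    | @insert c s hc ih =>
      intro hsub
      obtain ⟨F, hF, hFe, hFs⟩ := ih ((subset_insert c s).trans hsub)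
      obtain ⟨f, hf, hne⟩ := hno c (mem_filter.1 (hsub (mem_insert_self c s))).2
      set g : ZMod n → ℂ := fun z => f z - if z = 0 then phi c f else 0
      have hg : Inv G g := fun σ hσ h0 x => by
        simp only [g, hf σ hσ h0 x]
        congr 1
        exact if_congr ⟨fun h => σ.injective (h.trans h0.symm), fun h => by rw [h, h0]⟩ rfl rfl
      refine ⟨_, hF.conv hG hg, ?_, fun d hd => ?_⟩
      · rw [phi_conv, phi_sub_const]
        exact mul_ne_zero hFe (sub_ne_zero.2 hne)
      · rw [phi_conv, phi_sub_const]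
        rcases mem_insert.1 hd with rfl | hd
        · rw [sub_self, mul_zero]
        · rw [hFs d hd, zero_mul]
  obtain ⟨F, hF, hFe, hFs⟩ := key Cs subset_rfl
  refine hFe ?_
  rw [eq_zero_of_phi hG hprim hF hpn fun c hc => hFs c (by simpa [Cs] using hc)]
  simp [phi]

include hG hprim in
/-- The case `p ^ 2 ∣ n`. -/
theorem mem_orb_of_sq (hp2 : p * p ∣ n) {x y : ZMod n} (hx : x ≠ 0) (hy : y ≠ 0) :
    y ∈ orb G x := by
  have hpn : p ∣ n := (dvd_mul_right p p).trans hp2
  by_contra hxy
  set m := step n p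
  obtain ⟨k₁, hk₁, hk₁0, hpk₁⟩ := exists_kill hG hpn hprim hx
  obtain ⟨k₀, hk₀, hk₀0, hpk₀⟩ := exists_kill hG hpn hprim hy
  have hk₀T : k₀ ∉ orb G x := fun h => hxy (orb_trans G h (orb_symm G hk₀))
  obtain ⟨c, hc, hceq⟩ := exists_phi_eq hG hprim hpn m
  have hψm : ZMod.stdAddChar m ≠ 1 := fun h => step_ne_zero hpn
    (ZMod.injective_stdAddChar (h.trans (AddChar.map_zero_eq_one _).symm))
  rcases hc with rfl | hc
  · have h1 := hceq (fun _ => 1) fun _ _ _ _ => rfl
    have h2 : ∀ z : ZMod n, phi z (fun _ => 1) = ∑ x, ZMod.stdAddChar (z * x) := fun z => by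
      simp [phi]
    rw [h2, h2, sum_eq_zero_of_shift univ (a := 1) hψm (by simp) fun z _ => by
      rw [mul_add, mul_one, AddChar.map_add_eq_mul, mul_comm]] at h1
    simp at h1
    exact NeZero.ne n (by exact_mod_cast h1.symm)
  set T := orbFinset G x
  set ζ : ℂ := ZMod.stdAddChar m
  have hζp : ζ ^ p = 1 := by
    rw [← AddChar.map_nsmul_eq_pow, nsmul_eq_mul, mul_step hpn, AddChar.map_zero_eq_one]
  have hζ : IsPrimitiveRoot ζ p := by
    have := IsPrimitiveRoot.orderOf ζ
    rwa [orderOf_eq_prime hζp hψm] at this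
  have hval : ∀ z : ZMod n, ∀ b : ℕ, z = (b : ZMod n) * m → ZMod.stdAddChar z = ζ ^ b := fun z b hb => by
    rw [hb, ← nsmul_eq_mul, AddChar.map_nsmul_eq_pow]
  set N : ℕ → Finset (ZMod n) := fun b => T.filter fun z => z.val % p = b
  set K : ℕ → Finset (ZMod n) := fun b =>
    T.filter fun z => (p : ZMod n) * z = 0 ∧ c * z = (b : ZMod n) * m
  have hmod : ∀ z : ZMod n, m * z = ((z.val % p : ℕ) : ZMod n) * m := fun z => by
    conv_lhs => rw [← ZMod.natCast_zmod_val z, ← Nat.mod_add_div z.val p, Nat.cast_add, mul_add,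
      Nat.cast_mul, ← mul_assoc, mul_comm m (p : ZMod n), mul_step hpn, zero_mul, add_zero, mul_comm]
  have huniq : ∀ b b' : ℕ, b < p → b' < p → (b : ZMod n) * m = b' * m → b = b' := by
    have key : ∀ b b' : ℕ, b ≤ b' → b' < p → (b : ZMod n) * m = b' * m → b = b' := by
      intro b b' hle hlt h
      have h' : ((b' - b : ℕ) : ZMod n) * m = 0 := by rw [Nat.cast_sub hle, sub_mul, h, sub_self]
      have := Nat.eq_zero_of_dvd_of_lt ((mul_step_eq_zero_iff hpn _).1 h') (by omega)
      omega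
    intro b b' hb hb' h
    rcases le_total b b' with hle | hle
    · exact key b b' hle hb' h
    · exact (key b' b hle hb h.symm).symm
  have hlhs : phi m (fun z => if z ∈ T then 1 else 0) = ∑ b ∈ range p, ((N b).card : ℂ) * ζ ^ b := by
    simp only [phi, ite_mul, one_mul, zero_mul, ← sum_filter, filter_mem_eq_inter, univ_inter]
    rw [← sum_fiberwise_of_maps_to (g := fun z : ZMod n => z.val % p) (t := range p)
      fun z _ => mem_range.2 (Nat.mod_lt _ hp.out.pos)]
    refine sum_congr rfl fun b _ => ?_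
    rw [sum_congr rfl fun z hz => hval (m * z) b (by rw [hmod, (mem_filter.1 hz).2]), sum_const,
      nsmul_eq_mul]
  have hrhs : phi c (fun z => if z ∈ T then 1 else 0) = ∑ b ∈ range p, ((K b).card : ℂ) * ζ ^ b := by
    have hinv : Inv G fun z => if z ∈ T then (1 : ℂ) else 0 :=
      fun σ hσ h0 z => if_congr (iff_of_eq (inv_orbFinset x σ hσ h0 z)) rfl rfl
    rw [phi, ← sum_filter_add_sum_filter_not univ (fun z : ZMod n => (p : ZMod n) * z = 0),
      show ∑ z ∈ univ.filter (fun z : ZMod n => ¬(p : ZMod n) * z = 0),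
        (if z ∈ T then (1 : ℂ) else 0) * ZMod.stdAddChar (c * z) = 0 from
        sum_outside hG hprim hinv hpn hc, add_zero]
    simp only [ite_mul, one_mul, zero_mul, ← sum_filter, filter_filter]
    have hb : ∀ z : ZMod n, ∃ b < p, (p : ZMod n) * z = 0 → c * z = (b : ZMod n) * m := fun z => by
      by_cases h : (p : ZMod n) * z = 0
      · obtain ⟨b, hb, hb'⟩ := eq_add_step (x := 0) (w := c * z) hpn (by
          rw [mul_left_comm, h, mul_zero, mul_zero])
        exact ⟨b, hb, fun _ => by rw [hb', zero_add]⟩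
      · exact ⟨0, hp.out.pos, fun h' => absurd h' h⟩
    choose β hβ hβ' using hb
    rw [← sum_fiberwise_of_maps_to (g := β) (t := range p) fun z _ => mem_range.2 (hβ z)]
    refine sum_congr rfl fun b hb => ?_
    rw [sum_congr rfl fun z hz => hval _ b (by
      obtain ⟨hz, he⟩ := mem_filter.1 hz
      rw [hβ' z (mem_filter.1 hz).2.1, he]), sum_const, nsmul_eq_mul]
    congr 3
    ext z
    simp only [K, mem_filter, mem_univ, true_and]
    constructor
    · rintro ⟨⟨h1, h2⟩, h3⟩
      exact ⟨h2, h1, h3 ▸ hβ' z h1⟩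
    · rintro ⟨h2, h1, h3⟩
      exact ⟨⟨h1, h2⟩, huniq _ _ (hβ z) (mem_range.1 hb) ((hβ' z h1).symm.trans h3)⟩
  have hrel : ∑ b ∈ range p, ((((N b).card : ℤ) - (K b).card : ℤ) : ℂ) * ζ ^ b = 0 := by
    simp only [Int.cast_sub, Int.cast_natCast, sub_mul, sum_sub_distrib]
    rw [← hlhs, ← hrhs, hceq _ fun σ hσ h0 z => if_congr (iff_of_eq (inv_orbFinset x σ hσ h0 z)) rfl rfl,
      sub_self]
  -- the two coefficients
  have hN : ∀ b, b < p → b ≠ 0 → p ∣ (N b).card := by
    intro b _ hb0
    rw [card_eq_sum_card_image (fun z => (p : ZMod n) * z) (N b)]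
    refine dvd_sum fun v hv => ?_
    obtain ⟨z, hz, rfl⟩ := mem_image.1 hv
    obtain ⟨hzT, hzb⟩ := mem_filter.1 hz
    have hout : ∀ w : ZMod n, (p : ZMod n) * w = 0 → w.val % p = 0 := fun w hw => by
      have h1 : n ∣ p * w.val := by
        rw [← ZMod.natCast_eq_zero_iff, Nat.cast_mul, ZMod.natCast_zmod_val, hw]
      exact Nat.mod_eq_zero_of_dvd (Nat.dvd_of_mul_dvd_mul_left hp.out.pos (hp2.trans h1))
    have hz0 : (p : ZMod n) * z ≠ 0 := fun h => hb0 (hzb ▸ hout z h)
    refine dvd_of_eq ((card_fib hpn z).symm.trans (congrArg card ?_))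
    ext w
    simp only [fib, N, mem_filter, mem_univ, true_and]
    refine ⟨fun hw => ⟨⟨mem_orbFinset.2 (mem_orb_of_mul_eq hG hprim hpn (mem_orbFinset.1 hzT) hz0 hw),
      ?_⟩, hw⟩, fun h => h.2⟩
    obtain ⟨i, -, hi⟩ := eq_add_step hpn hw
    have hdvd : p ∣ n / p := by
      obtain ⟨e, he⟩ := hp2
      rw [he, mul_assoc, Nat.mul_div_cancel_left _ hp.out.pos]
      exact dvd_mul_right p e
    have : ((w.val : ℕ) : ZMod n) = ((z.val + i * (n / p) : ℕ) : ZMod n) := by
      rw [Nat.cast_add, Nat.cast_mul, ZMod.natCast_zmod_val, ZMod.natCast_zmod_val, hi]; rfl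
    rw [ZMod.natCast_eq_natCast_iff'] at this
    have h' := congrArg (· % p) this
    simp only [Nat.mod_mod_of_dvd _ hpn] at h'
    rw [h', Nat.add_mod, Nat.mul_mod, Nat.mod_eq_zero_of_dvd hdvd, mul_zero, Nat.zero_mod, add_zero,
      Nat.mod_mod, hzb]
  have hinj : ∀ u : ZMod n, (p : ZMod n) * u = 0 → c * u = 0 → u = 0 := by
    intro u hu hcu
    obtain ⟨i, hi, hiu⟩ := eq_add_step (x := 0) hpn (by rw [hu, mul_zero])
    rw [zero_add] at hiu
    obtain ⟨j, hj, hjm⟩ := eq_add_step (x := 0) (w := c * m) hpn (by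
      rw [mul_left_comm, mul_step hpn, mul_zero, mul_zero])
    rw [zero_add] at hjm
    rw [hiu, mul_left_comm, hjm, ← mul_assoc, ← Nat.cast_mul, mul_step_eq_zero_iff hpn] at hcu
    rw [hiu]
    rcases hp.out.dvd_mul.1 hcu with h | h
    · rw [(mul_step_eq_zero_iff hpn i).2 h]
    · exact absurd ((mul_step_eq_zero_iff hpn j).2 h) (hjm ▸ hc)
  have hindex : ∀ k : ZMod n, k ≠ 0 → (p : ZMod n) * k = 0 →
      ∃ b < p, b ≠ 0 ∧ c * k = (b : ZMod n) * m := by
    intro k hk0 hpk
    obtain ⟨b, hb, hbk⟩ := eq_add_step (x := 0) (w := c * k) hpn (by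
      rw [mul_left_comm, hpk, mul_zero, mul_zero])
    rw [zero_add] at hbk
    exact ⟨b, hb, fun e => hk0 (hinj k hpk (by rw [hbk, e, Nat.cast_zero, zero_mul])), hbk⟩
  obtain ⟨b₁, hb₁, hb₁0, he₁⟩ := hindex k₁ hk₁0 hpk₁
  obtain ⟨b₀, hb₀, hb₀0, he₀⟩ := hindex k₀ hk₀0 hpk₀
  have hK₁ : (K b₁).card = 1 := by
    refine card_eq_one.2 ⟨k₁, ?_⟩
    ext z
    simp only [K, mem_filter, mem_singleton]
    refine ⟨fun ⟨_, h1, h2⟩ => sub_eq_zero.1 (hinj _ (by rw [mul_sub, h1, hpk₁, sub_zero])
      (by rw [mul_sub, h2, he₁, sub_self])), ?_⟩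
    rintro rfl
    exact ⟨mem_orbFinset.2 hk₁, hpk₁, he₁⟩
  have hK₀ : (K b₀).card = 0 := by
    refine card_eq_zero.2 (filter_eq_empty_iff.2 fun z hz h => hk₀T ?_)
    have : z = k₀ := sub_eq_zero.1 (hinj _ (by rw [mul_sub, h.1, hpk₀, sub_zero])
      (by rw [mul_sub, h.2, he₀, sub_self]))
    exact this ▸ mem_orbFinset.1 hz
  have h := eq_of_sum_pow_eq_zero hζ (c := fun b => ((N b).card : ℤ) - (K b).card) hrel hb₀ hb₁
  simp only [hK₁, hK₀, Nat.cast_zero, sub_zero, Nat.cast_one] at h
  obtain ⟨u, hu⟩ := hN b₀ hb₀ hb₀0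
  obtain ⟨v, hv⟩ := hN b₁ hb₁ hb₁0
  rw [hu, hv] at h
  push_cast at h
  have : (p : ℤ) ∣ 1 := ⟨(v : ℤ) - u, by linarith⟩
  exact hp.out.ne_one (Nat.dvd_one.1 (by exact_mod_cast this))

end PrimePower

include hG hprim in
/-- **Schur's theorem**: for composite `n` the stabiliser of `0` has one orbit besides `{0}`. -/
theorem mem_orb_of_composite (hn1 : 1 < n) (hn : ¬ n.Prime) {x y : ZMod n} (hx : x ≠ 0)
    (hy : y ≠ 0) : y ∈ orb G x := by
  haveI : Fact (Nat.minFac n).Prime := ⟨Nat.minFac_prime hn1.ne'⟩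
  obtain ⟨m, hm⟩ := Nat.minFac_dvd n
  have hm1 : m ≠ 1 := fun e => hn (by rw [hm, e, mul_one]; exact Fact.out)
  haveI : Fact (Nat.minFac m).Prime := ⟨Nat.minFac_prime hm1⟩
  have hq : Nat.minFac n * Nat.minFac m ∣ n := by
    conv_rhs => rw [hm]
    exact Nat.mul_dvd_mul_left _ (Nat.minFac_dvd m)
  by_cases hpq : Nat.minFac n = Nat.minFac m
  · rw [← hpq] at hq
    exact mem_orb_of_sq hG hprim hq hx hy
  · exact mem_orb_of_two_primes hG hprim (Nat.minFac_dvd n) ((dvd_mul_left _ _).trans hq) hpq hx hy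

end FA.SchurBGroup

end
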