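import Mathlib.GroupTheory.Perm.Basic
import Mathlib.Data.ZMod.Basic
import Mathlib.Algebra.BigOperators.Group.Finset.Basic
import Mathlib.Tactic.Abel

/-!
# The Schur ring of a permutation group on `ℤ / n` containing the translations

Functions invariant under the stabiliser of `0` are closed under convolution, and an invariant set
generates an invariant subgroup.
-/

set_option autoImplicit false

namespace FA.SchurBGroup

variable {n : ℕ} (G : Subgroup (Equiv.Perm (ZMod n)))

/-- Invariant under the stabiliser of `0`. -/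
def Inv {R : Type*} (f : ZMod n → R) : Prop := ∀ σ ∈ G, σ 0 = 0 → ∀ x, f (σ x) = f x

/-- The group contains all translations. -/
def Translations : Prop := ∀ a : ZMod n, Equiv.addRight a ∈ G

/-- The only invariant subgroups are the trivial ones. -/
def SubPrim : Prop := ∀ H : AddSubgroup (ZMod n), Inv G (· ∈ H) → H = ⊥ ∨ H = ⊤

/-- The orbit of the stabiliser of `0`. -/
def orb (x : ZMod n) : Set (ZMod n) := {y | ∃ σ ∈ G, σ 0 = 0 ∧ σ x = y}

theorem translations_of_addRight_one [NeZero n] (h : Equiv.addRight (1 : ZMod n) ∈ G) :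
    Translations G := fun a => by
  have key : ∀ k : ℕ, Equiv.addRight (k : ZMod n) ∈ G := by
    intro k
    induction k with
    | zero =>
      rw [show Equiv.addRight ((0 : ℕ) : ZMod n) = 1 from Equiv.ext fun x => by simp]
      exact one_mem _
    | succ k ih =>
      rw [show Equiv.addRight ((k + 1 : ℕ) : ZMod n) = Equiv.addRight 1 * Equiv.addRight (k : ZMod n)
        from Equiv.ext fun x => by simp [add_assoc]]
      exact mul_mem h ih
  simpa using key a.val

theorem mem_orb_self (x : ZMod n) : x ∈ orb G x := ⟨1, one_mem _, rfl, rfl⟩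

theorem inv_orb (x : ZMod n) : Inv G (· ∈ orb G x) := fun σ hσ h0 y => propext
  ⟨fun ⟨τ, hτ, hτ0, he⟩ => ⟨σ⁻¹ * τ, mul_mem (inv_mem hσ) hτ, by
      simp [hτ0, Equiv.Perm.inv_def, Equiv.symm_apply_eq, h0], by
      simp [he, Equiv.Perm.inv_def]⟩,
    fun ⟨τ, hτ, hτ0, he⟩ => ⟨σ * τ, mul_mem hσ hτ, by simp [hτ0, h0], by simp [he]⟩⟩

theorem zero_notMem_orb {x : ZMod n} (hx : x ≠ 0) : (0 : ZMod n) ∉ orb G x :=
  fun ⟨σ, _, h0, he⟩ => hx (σ.injective (he.trans h0.symm))

theorem orb_symm {x y : ZMod n} (h : y ∈ orb G x) : x ∈ orb G y :=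
  let ⟨σ, hσ, h0, he⟩ := h
  ⟨σ⁻¹, inv_mem hσ, by simp [Equiv.Perm.inv_def, Equiv.symm_apply_eq, h0], by
    simp [Equiv.Perm.inv_def, Equiv.symm_apply_eq, he]⟩

theorem orb_trans {x y z : ZMod n} (h : y ∈ orb G x) (h' : z ∈ orb G y) : z ∈ orb G x :=
  let ⟨σ, hσ, h0, he⟩ := h
  let ⟨τ, hτ, h0', he'⟩ := h'
  ⟨τ * σ, mul_mem hτ hσ, by simp [h0, h0'], by simp [he, he']⟩

theorem Inv.apply_orb {R : Type*} {f : ZMod n → R} (hf : Inv G f) {x y : ZMod n}
    (h : y ∈ orb G x) : f y = f x :=
  let ⟨σ, hσ, h0, he⟩ := h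
  he ▸ hf σ hσ h0 x

theorem Inv.comp {R S : Type*} {f : ZMod n → R} (hf : Inv G f) (g : R → S) :
    Inv G fun x => g (f x) := fun σ hσ h0 x => congrArg g (hf σ hσ h0 x)

variable {G} (hG : Translations G)

include hG in
/-- **Invariance of differences.** -/
theorem Inv.sub {R : Type*} {f : ZMod n → R} (hf : Inv G f) {σ : Equiv.Perm (ZMod n)} (hσ : σ ∈ G)
    (x y : ZMod n) : f (σ y - σ x) = f (y - x) := by
  have := hf (Equiv.addRight (-σ x) * σ * Equiv.addRight x)
    (mul_mem (mul_mem (hG _) hσ) (hG _)) (by simp) (y - x)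
  simpa [sub_eq_add_neg] using this

include hG in
/-- **Closure under convolution.** -/
theorem Inv.conv {R : Type*} [CommSemiring R] [NeZero n] {f g : ZMod n → R} (hf : Inv G f)
    (hg : Inv G g) : Inv G fun z => ∑ x, f x * g (z - x) := fun σ hσ h0 z =>
  (Fintype.sum_equiv σ _ _ fun x => by rw [hf σ hσ h0, hg.sub hG hσ]).symm

include hG in
/-- The invariant subgroup generated by an invariant set. -/
theorem inv_closure {P : ZMod n → Prop} (hP : Inv G P) :
    Inv G (· ∈ AddSubgroup.closure {x | P x}) := by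
  set H := AddSubgroup.closure {x | P x}
  have key : ∀ x ∈ H, ∀ σ ∈ G, ∀ a, σ (a + x) - σ a ∈ H := by
    intro x hx
    induction hx using AddSubgroup.closure_induction with
    | mem x hx =>
      intro σ hσ a
      refine AddSubgroup.subset_closure ?_
      show P (σ (a + x) - σ a)
      rw [hP.sub hG hσ, add_sub_cancel_left]
      exact hx
    | zero => intro σ _ a; simp
    | add x y _ _ ihx ihy =>
      intro σ hσ a
      rw [show σ (a + (x + y)) - σ a = (σ (a + x + y) - σ (a + x)) + (σ (a + x) - σ a) by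
        rw [add_assoc]; abel]
      exact H.add_mem (ihy σ hσ _) (ihx σ hσ a)
    | neg x _ ih =>
      intro σ hσ a
      rw [show σ (a + -x) - σ a = -(σ (a + -x + x) - σ (a + -x)) by
        rw [neg_add_cancel_right]; abel]
      exact H.neg_mem (ih σ hσ _)
  intro σ hσ h0 x
  refine propext ⟨fun h => ?_, fun h => ?_⟩
  · have := key _ h σ⁻¹ (inv_mem hσ) 0
    simpa [Equiv.Perm.inv_def, Equiv.symm_apply_eq, h0,
      show σ.symm 0 = 0 by rw [Equiv.symm_apply_eq, h0]] using this
  · simpa [h0] using key _ h σ hσ 0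

include hG in
/-- An invariant set in a proper subgroup is trivial. -/
theorem SubPrim.eq_zero (hp : SubPrim G) {P : ZMod n → Prop} (hP : Inv G P)
    {H₀ : AddSubgroup (ZMod n)} (hH : H₀ ≠ ⊤) (hle : ∀ x, P x → x ∈ H₀) {x : ZMod n} (hx : P x) :
    x = 0 := by
  rcases hp _ (inv_closure hG hP) with h | h
  · exact (AddSubgroup.mem_bot).1 (h ▸ AddSubgroup.subset_closure hx)
  · exact absurd (top_le_iff.1 (h ▸ (AddSubgroup.closure_le _).2 hle)) hH

include hG in
/-- If the only blocks are trivial, so are the invariant subgroups. -/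
theorem subPrim_of_blocks (h : ∀ B : Set (ZMod n),
    (∀ g ∈ G, ∀ a ∈ B, g a ∈ B → g '' B = B) → B.Subsingleton ∨ B = Set.univ) : SubPrim G := by
  intro H hH
  have hB : ∀ g ∈ G, ∀ a ∈ (H : Set (ZMod n)), g a ∈ (H : Set (ZMod n)) →
      g '' (H : Set (ZMod n)) = H := by
    intro g hg a ha hga
    have hsub : ∀ x, (g x ∈ H ↔ x ∈ H) := fun x => by
      have e : (g x - g a ∈ H) = (x - a ∈ H) := hH.sub hG hg a x
      refine ⟨fun hx => ?_, fun hx => ?_⟩
      · simpa using H.add_mem (e ▸ H.sub_mem hx hga : x - a ∈ H) ha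
      · simpa using H.add_mem (e.symm ▸ H.sub_mem hx ha : g x - g a ∈ H) hga
    ext y
    constructor
    · rintro ⟨x, hx, rfl⟩
      exact (hsub x).2 hx
    · intro hy
      exact ⟨g.symm y, (hsub _).1 (by simpa using hy), g.apply_symm_apply y⟩
  rcases h _ hB with h | h
  · exact Or.inl ((AddSubgroup.eq_bot_iff_forall H).2 fun x hx => h hx H.zero_mem)
  · exact Or.inr (SetLike.coe_injective (h.trans AddSubgroup.coe_top.symm))

end FA.SchurBGroup
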